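import Fermat.Agent.S25.SchemeDefs
import Fermat.Agent.S25.L.TensorDomain
import Fermat.Agent.S25.S.Charts

/-! # S25 / layer G, task S25/G-GeomInt (= G6) : a curve with a good presentation is geometrically integral -/
set_option autoImplicit false
universe u
open CategoryTheory CategoryTheory.Limits AlgebraicGeometry AlgebraicGeometry.RelPicard
  NeronModelInfra GoodReductionJacobian TensorProduct

namespace Fermat.Agent.S25

namespace G

/-- topological part of `isIntegral_of_two_opens`. -/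
theorem GeomInt.irreducibleSpace_of_two_opens {Z : Type*} [TopologicalSpace Z] (U V : Set Z)
    (hUo : IsOpen U) (hVo : IsOpen V) (hcov : U ∪ V = Set.univ) (hU : IsPreirreducible U)
    (hV : IsPreirreducible V) (hne : (U ∩ V).Nonempty) : IrreducibleSpace Z := by
  have hW : IsOpen (U ∩ V) := hUo.inter hVo
  -- every nonempty open set meets `U ∩ V`
  have key : ∀ A : Set Z, IsOpen A → A.Nonempty → (A ∩ (U ∩ V)).Nonempty := by
    intro A hA ⟨a, ha⟩
    have haUV : a ∈ U ∪ V := by rw [hcov]; trivial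
    obtain ⟨w, hw⟩ := hne
    rcases haUV with haU | haV
    · obtain ⟨b, -, hb⟩ := hU A (U ∩ V) hA hW ⟨a, haU, ha⟩ ⟨w, hw.1, hw⟩
      exact ⟨b, hb⟩
    · obtain ⟨b, -, hb⟩ := hV A (U ∩ V) hA hW ⟨a, haV, ha⟩ ⟨w, hw.2, hw⟩
      exact ⟨b, hb⟩
  have : Nonempty Z := ⟨hne.some⟩
  refine @IrreducibleSpace.mk Z _ ⟨?_⟩ ‹_›
  rintro A B hA hB ⟨a, -, ha⟩ ⟨b, -, hb⟩
  obtain ⟨a', ha'⟩ := key A hA ⟨a, ha⟩
  obtain ⟨b', hb'⟩ := key B hB ⟨b, hb⟩
  obtain ⟨z, -, hz⟩ := hU A B hA hB ⟨a', ha'.2.1, ha'.1⟩ ⟨b', hb'.2.1, hb'.1⟩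
  exact ⟨z, trivial, hz⟩

/-- (topology + reducedness is local) a scheme covered by two integral open subschemes with nonempty
intersection is integral.  `isIntegral_iff_irreducibleSpace_and_isReduced`; reduced: `isReduced_of_isOpenImmersion`-type
locality (`IsReduced` can be checked on an open cover / on stalks: `isReduced_of_isReduced_stalk`);
irreducible: the union of two irreducible subsets which meet in a nonempty OPEN subset is irreducible
(closure of `U ∩ V` contains `U` and `V`). -/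
theorem isIntegral_of_two_opens {Z : Scheme.{u}} (U V : Z.Opens) (hcov : U ⊔ V = ⊤)
    [IsIntegral U.toScheme] [IsIntegral V.toScheme] (hne : ∃ z, z ∈ U ⊓ V) : IsIntegral Z := by
  rw [isIntegral_iff_irreducibleSpace_and_isReduced]
  have hmem : ∀ z : Z, z ∈ U ∨ z ∈ V := by
    intro z
    have : z ∈ U ⊔ V := by rw [hcov]; trivial
    exact this
  constructor
  · have hirr : ∀ W : Z.Opens, IsIntegral W.toScheme → IsPreirreducible (W : Set Z) := by
      intro W _
      have h1 : IrreducibleSpace (W : Set Z) := (inferInstance : IrreducibleSpace W.toScheme)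
      exact (isIrreducible_iff_irreducibleSpace.2 h1).isPreirreducible
    obtain ⟨z, hz⟩ := hne
    refine GeomInt.irreducibleSpace_of_two_opens (U : Set Z) (V : Set Z) U.isOpen V.isOpen ?_
      (hirr U inferInstance) (hirr V inferInstance) ⟨z, hz⟩
    ext z
    simpa using hmem z
  · have hst : ∀ z : Z, _root_.IsReduced (Z.presheaf.stalk z) := by
      intro z
      rcases hmem z with hz | hz
      · have : _root_.IsReduced (U.toScheme.presheaf.stalk ⟨z, hz⟩) :=
          isReduced_stalk_of_isReduced (X := U.toScheme) _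
        exact isReduced_of_injective (U.stalkIso ⟨z, hz⟩).inv.hom
          (U.stalkIso ⟨z, hz⟩).symm.commRingCatIsoToRingEquiv.injective
      · have : _root_.IsReduced (V.toScheme.presheaf.stalk ⟨z, hz⟩) :=
          isReduced_stalk_of_isReduced (X := V.toScheme) _
        exact isReduced_of_injective (V.stalkIso ⟨z, hz⟩).inv.hom
          (V.stalkIso ⟨z, hz⟩).symm.commRingCatIsoToRingEquiv.injective
    exact isReduced_of_isReduced_stalk Z

end G

/-- **G6.**  Unfold `GeometricallyIntegral` (`geometrically`): `K` a field, `y : Spec K ⟶ Spec k`,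
`IsPullback fst snd c y`; show `IsIntegral Z`.  `y = Spec.map φ`, `φ : k → K` makes `K` a `k`-algebra.
`W_i := fst ⁻¹ᵁ (P.j_i).opensRange` cover `Z` (`P.cover`).  `W_i ≅ Spec (K ⊗[k] B_i)`: paste pullback squares
(`IsPullback.paste_vert/horiz`, `isPullback_morphismRestrict`, `IsOpenImmersion.isPullback`...) and use
`isPullback_SpecMap_of_isPushout` / `pullbackSpecIso`; `K ⊗[k] B_i` is a domain by
`isDomain_tensorProduct_of_isAlgClosed` (`hΓ.isDomain₀`), so `W_i` is integral
(`isIntegral_of_isOpenImmersion`/`isIntegral_of_iso`, instance for `Spec` of a domain).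
`W₀ ⊓ W₁ ≠ ∅`: it is the preimage of `Spec B₀₁` (`P.isPullback`), i.e. `Spec (K ⊗ B₀₁)`, and
`K ⊗[k] B₀₁ ≠ 0` (`B₀₁` is a localisation of the domain `B₀` at `x ≠ 0`, nontrivial; free modules over a field).
Alternative for nonemptiness: `fst` is surjective onto... (base change of the surjective `y`), pick a point over a
point of `j₀.opensRange ⊓ j₁.opensRange`. -/
theorem geometricallyIntegral_of_presentation (k : Type u) [Field k] [IsAlgClosed k] {C : Scheme.{u}}
    (c : C ⟶ Spec (CommRingCat.of k)) (ε : SchemeHomOver (𝟙 (Spec (CommRingCat.of k))) c)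
    (Γ : CurveAlg k) (hΓ : Γ.IsGood) (P : Presentation c ε Γ) : GeometricallyIntegral c := by
  rw [geometricallyIntegral_iff, geometrically_iff_of_commRing]
  intro K _ _ Z fst snd h
  suffices hint : IsIntegral (pullback c (tSpec k K)) from
    @IsIntegral.of_isIso _ _ hint h.isoPullback.inv (Iso.isIso_inv h.isoPullback)
  have := P.isOpenImmersion_J₀ K
  have := P.isOpenImmersion_J₁ K
  have := hΓ.isDomain₀
  have := hΓ.isDomain₁
  have hd0 : IsDomain (K ⊗[k] Γ.B₀) := isDomain_tensorProduct_of_isAlgClosed K Γ.B₀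
  have hd1 : IsDomain (K ⊗[k] Γ.B₁) := isDomain_tensorProduct_of_isAlgClosed K Γ.B₁
  have hd01' : IsDomain Γ.B₀₁ := by
    let _ : Algebra Γ.B₀ Γ.B₀₁ := Γ.ι₀.toRingHom.toAlgebra
    have : IsLocalization.Away Γ.x Γ.B₀₁ := hΓ.loc₀
    have hx : Γ.x ≠ 0 := by
      intro h0
      apply hΓ.transc₀
      rw [h0]
      exact isAlgebraic_zero
    exact IsLocalization.isDomain_of_le_nonZeroDivisors Γ.B₀₁
      (powers_le_nonZeroDivisors_of_noZeroDivisors hx)
  have hd01 : IsDomain (K ⊗[k] Γ.B₀₁) := isDomain_tensorProduct_of_isAlgClosed K Γ.B₀₁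
  have hi0 : IsIntegral (P.J₀ K).opensRange.toScheme :=
    IsIntegral.of_isIso (P.J₀ K).isoOpensRange.hom
  have hi1 : IsIntegral (P.J₁ K).opensRange.toScheme :=
    IsIntegral.of_isIso (P.J₁ K).isoOpensRange.hom
  refine G.isIntegral_of_two_opens (P.J₀ K).opensRange (P.J₁ K).opensRange ?_ ?_
  · rw [eq_top_iff]
    intro y _
    exact P.cover_J₀_J₁ K y
  · obtain ⟨w⟩ : Nonempty (sp (Γ.R₀₁ K)) := inferInstance
    refine ⟨(spMap (Γ.φ₀ K).toRingHom ≫ P.J₀ K).base w, ⟨_, rfl⟩, ?_⟩
    rw [P.φ₀_J₀_eq K]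
    exact ⟨_, rfl⟩

end Fermat.Agent.S25
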