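import Fermat.Agent.S25.G.Package

/-! # S25 / layer G, task S25/G-PackGood : the presentation attached to two charts is good
(also prove `ev_kSec` in `G/Package.lean`). -/
set_option autoImplicit false
universe u
open CategoryTheory CategoryTheory.Limits AlgebraicGeometry AlgebraicGeometry.RelPicard
  NeronModelInfra GoodReductionJacobian TensorProduct

namespace Fermat.Agent.S25.G

theorem packGood_loc {C : Scheme.{u}} {U W : C.Opens} (hU : IsAffineOpen U) (s : Γ(C, U))
    (h : C.basicOpen s = W) (hle : W ≤ U) :
    @IsLocalization.Away Γ(C, U) _ s Γ(C, W) _ (C.presheaf.map (homOfLE hle).op).hom.toAlgebra := by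
  subst h
  exact hU.isLocalization_basicOpen s

theorem packGood_aeval {k B : Type u} [Field k] [CommRing B] (φ : k →+* B) (x : B) :
    letI := φ.toAlgebra
    (Polynomial.aeval (R := k) x).toRingHom = Polynomial.eval₂RingHom φ x := by
  let := φ.toAlgebra
  ext <;> simp [RingHom.algebraMap_toAlgebra]

theorem packGood_nonempty {C : Scheme.{u}} (U : C.Opens) [Nontrivial Γ(C, U)] : Nonempty U := by
  by_contra h
  rw [not_nonempty_iff] at h
  have hU : U = ⊥ := by
    ext x
    simp only [TopologicalSpace.Opens.coe_bot, Set.mem_empty_iff_false, iff_false]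
    exact fun hx => h.false ⟨x, hx⟩
  subst hU
  exact not_subsingleton Γ(C, ⊥) inferInstance

variable {k : Type u} [Field k] {C : Scheme.{u}} {c : C ⟶ Spec (CommRingCat.of k)}
  {ε : SchemeHomOver (𝟙 (Spec (CommRingCat.of k))) c}

namespace ChartData

variable (D : ChartData c ε)

/-- (task S25/G-PackGood).  Domain, Dedekind: `isDedekindDomain_sec` (`U₀`, `U₁` are nonempty: `inj₀` shows
`Γ(C, U₀)` is nontrivial; or `base`).  Finite type: `kSec_finiteType`.  `loc₀`, `loc₁`:
`IsAffineOpen.isLocalization_basicOpen` transported along `basic₀`, `basic₁` (prove a lemma for a VARIABLE open `W`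
with `h : W = C.basicOpen s` and `subst h`).  `finite₀`: `aeval x = eval₂ (algebraMap) x` (`Polynomial.aeval_def`),
`algebraMap = kSec` by `rfl`.  `transc₀`: `transcendental_iff_injective`. -/
theorem isGood [IsAlgClosed k] [SmoothOfRelativeDimension 1 c] [LocallyOfFiniteType c] [IsIntegral C] :
    D.curveAlg.IsGood := by
  have hnt₀ : Nontrivial Γ(C, D.U₀) := D.inj₀.nontrivial
  have hnt₁ : Nontrivial Γ(C, D.U₁) := D.inj₁.nontrivial
  have hne₀ : Nonempty D.U₀ := packGood_nonempty D.U₀
  have hne₁ : Nonempty D.U₁ := packGood_nonempty D.U₁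
  have hd₀ : IsDedekindDomain Γ(C, D.U₀) := isDedekindDomain_sec c D.aff₀
  have hd₁ : IsDedekindDomain Γ(C, D.U₁) := isDedekindDomain_sec c D.aff₁
  refine ⟨hd₀.toIsDomain, hd₁.toIsDomain, hd₀, hd₁, kSec_finiteType c D.aff₀, kSec_finiteType c D.aff₁,
    packGood_loc D.aff₀ D.s₀ D.basic₀ inf_le_left, packGood_loc D.aff₁ D.s₁ D.basic₁ inf_le_right,
    D.mul, ?_, ?_, ?_, ?_⟩
  · have := D.fin₀
    rw [← packGood_aeval] at this
    exact this
  · have := D.fin₁
    rw [← packGood_aeval] at this
    exact this
  · have := D.inj₀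
    rw [← packGood_aeval] at this
    exact transcendental_iff_injective.mpr this
  · have := D.inj₁
    rw [← packGood_aeval] at this
    exact transcendental_iff_injective.mpr this

end ChartData

end Fermat.Agent.S25.G
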