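import Fermat.Agent.S25.G.Package

/-! # S25 / layer G, task S25/G-PackPres : two charts give a `Presentation`. -/
set_option autoImplicit false
universe u
open CategoryTheory CategoryTheory.Limits AlgebraicGeometry AlgebraicGeometry.RelPicard
  NeronModelInfra GoodReductionJacobian TensorProduct

namespace Fermat.Agent.S25.G

variable {k : Type u} [Field k] {C : Scheme.{u}} {c : C ⟶ Spec (CommRingCat.of k)}
  {ε : SchemeHomOver (𝟙 (Spec (CommRingCat.of k))) c}

namespace PackPres

/-- the structure morphism of an affine chart. -/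
theorem fromSpec_comp (c : C ⟶ Spec (CommRingCat.of k)) {U : C.Opens} (hU : IsAffineOpen U) :
    hU.fromSpec ≫ c = Spec.map (CommRingCat.ofHom (kSec c U)) := by
  rw [← IsAffineOpen.SpecMap_appLE_fromSpec c (isAffineOpen_top _) hU le_top,
    IsAffineOpen.fromSpec_top, Scheme.isoSpec_Spec_inv, ← Spec.map_comp]
  rfl

/-- a point of an affine chart. -/
theorem eq_SpecMap_comp_fromSpec (e : Spec (CommRingCat.of k) ⟶ C) {U : C.Opens}
    (hU : IsAffineOpen U) (h : ⊤ ≤ e ⁻¹ᵁ U) :
    e = Spec.map (e.appLE U ⊤ h ≫ (Scheme.ΓSpecIso (CommRingCat.of k)).hom) ≫ hU.fromSpec := by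
  rw [Spec.map_comp, Category.assoc,
    IsAffineOpen.SpecMap_appLE_fromSpec e hU (isAffineOpen_top _) h,
    IsAffineOpen.fromSpec_top, Scheme.isoSpec_Spec_inv, ← Category.assoc, ← Spec.map_comp,
    Iso.inv_hom_id, Spec.map_id, Category.id_comp]

/-- the intersection of two affine charts. -/
theorem isPullback_fromSpec {U V : C.Opens} (hU : IsAffineOpen U) (hV : IsAffineOpen V)
    (hUV : IsAffineOpen (U ⊓ V)) :
    IsPullback (Spec.map (C.presheaf.map (homOfLE (inf_le_left : U ⊓ V ≤ U)).op))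
      (Spec.map (C.presheaf.map (homOfLE (inf_le_right : U ⊓ V ≤ V)).op))
      hU.fromSpec hV.fromSpec := by
  refine (isPullback_opens_inf U V).of_iso hUV.isoSpec hU.isoSpec hV.isoSpec (Iso.refl _)
    ?_ ?_ ?_ ?_
  · rw [← cancel_mono hU.fromSpec, Category.assoc, Category.assoc,
      IsAffineOpen.isoSpec_hom_fromSpec, IsAffineOpen.map_fromSpec _ hUV,
      IsAffineOpen.isoSpec_hom_fromSpec, Scheme.homOfLE_ι]
  · rw [← cancel_mono hV.fromSpec, Category.assoc, Category.assoc,
      IsAffineOpen.isoSpec_hom_fromSpec, IsAffineOpen.map_fromSpec _ hUV,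
      IsAffineOpen.isoSpec_hom_fromSpec, Scheme.homOfLE_ι]
  · rw [Iso.refl_hom, Category.comp_id, IsAffineOpen.isoSpec_hom_fromSpec]
  · rw [Iso.refl_hom, Category.comp_id, IsAffineOpen.isoSpec_hom_fromSpec]

end PackPres

namespace ChartData

variable (D : ChartData c ε)

theorem PackPres_aff₀₁ : IsAffineOpen (D.U₀ ⊓ D.U₁) := D.basic₀ ▸ D.aff₀.basicOpen D.s₀

/-- (task S25/G-PackPres).  `j₀ = aff₀.fromSpec`, `j₁ = aff₁.fromSpec`.  `over₀`: morphisms to an affine scheme,
`IsAffineOpen.fromSpec_toSpecΓ`, or `IsAffineOpen.SpecMap_appLE_fromSpec` for `c` with `⊤`.  `cover`: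
`IsAffineOpen.opensRange_fromSpec`.  `isPullback`: `isPullback_opens_inf U₀ U₁` transported along the isomorphisms
`IsAffineOpen.isoSpec` (`U₀ ⊓ U₁ = D(s₀)` is affine: `IsAffineOpen.basicOpen`), `IsPullback.of_iso`;
`IsAffineOpen.map_fromSpec`/`Scheme.Opens.toSpecΓ_SpecMap_presheaf_map`.  `base`:
`IsAffineOpen.SpecMap_appLE_fromSpec` for `ε.1` with `V = ⊤`, `IsAffineOpen.fromSpec_top`, `Scheme.isoSpec_Spec`. -/
theorem nonempty_presentation : Nonempty (Presentation c ε D.curveAlg) :=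
  ⟨{ j₀ := D.aff₀.fromSpec
     j₁ := D.aff₁.fromSpec
     open₀ := D.aff₀.isOpenImmersion_fromSpec
     open₁ := D.aff₁.isOpenImmersion_fromSpec
     over₀ := PackPres.fromSpec_comp c D.aff₀
     over₁ := PackPres.fromSpec_comp c D.aff₁
     cover := by
       have h0 := D.aff₀.opensRange_fromSpec
       have h1 := D.aff₁.opensRange_fromSpec
       exact (congrArg₂ (· ⊔ ·) h0 h1).trans D.cover
     isPullback := PackPres.isPullback_fromSpec D.aff₀ D.aff₁ D.PackPres_aff₀₁
     base := PackPres.eq_SpecMap_comp_fromSpec ε.1 D.aff₀ D.base }⟩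

end ChartData

end Fermat.Agent.S25.G
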