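import Fermat.Agent.S25.G.Charts
import Fermat.Agent.S25.G.PackGood
import Fermat.Agent.S25.G.PackPres
import Fermat.Agent.S25.G.GeomInt

/-! # S25 / layer G : the curve has a good presentation

Sub-lead: helper32.  Structure of the layer (one file = one task):
* `G/AlgDedekind.lean` (G-A1), `G/AlgLocal.lean` (G-A2), `G/AlgQF.lean` (G-A3): pure algebra;
* `G/Sec.lean` (G-Sec): `kSec c U : k →+* Γ(C, U)`, sections over affine opens are Dedekind, stalks are valuation rings;
* `G/Reg.lean` (G-Reg): domain of regularity `regLocus x` of a rational function, `regSec x`;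
* `G/ToA1.lean` (G-ToA1): `toA1 c U s : U ⟶ Spec k[X]`;
* `G/Valuative.lean` (G-Valuative), `G/Proper.lean` (G-Proper): `toA1` is proper (valuative criterion);
* `G/Finite.lean` (G-Finite): quasi-finite, finite, affine;
* `G/Package.lean`, `G/PackGood.lean` (G-PackGood), `G/PackPres.lean` (G-PackPres):
  `ChartData ⇒ CurveAlg, IsGood, Presentation`;
* `G/Charts.lean`: assembly `nonempty_chartData` (done);
* `G/GeomInt.lean` (G-GeomInt): G6.
-/
set_option autoImplicit false
universe u
open CategoryTheory CategoryTheory.Limits AlgebraicGeometry AlgebraicGeometry.RelPicard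
  NeronModelInfra GoodReductionJacobian TensorProduct

namespace Fermat.Agent.S25

/-- **Main theorem of layer G.** -/
theorem exists_presentation (k : Type u) [Field k] [IsAlgClosed k] {C : Scheme.{u}}
    (c : C ⟶ Spec (CommRingCat.of k)) [IsProper c] [SmoothOfRelativeDimension 1 c] [IsIntegral C]
    (ε : SchemeHomOver (𝟙 (Spec (CommRingCat.of k))) c) :
    ∃ Γ : CurveAlg k, Γ.IsGood ∧ Nonempty (Presentation c ε Γ) := by
  obtain ⟨D⟩ := G.nonempty_chartData c ε
  exact ⟨D.curveAlg, D.isGood, D.nonempty_presentation⟩

end Fermat.Agent.S25
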