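import Mathlib

/-! # S25 / layer G, task S25/G-A1 : standard smooth of relative dimension one over an algebraically
closed field + domain ⇒ Dedekind (Mathlib only) -/
set_option autoImplicit false
set_option linter.style.haveILetI false
universe u

namespace Fermat.Agent.S25

namespace G

open TensorProduct KaehlerDifferential in
/-- `m/m²` is at most one dimensional. -/
theorem AlgDedekind_exists_generator (k : Type u) [Field k]
    [IsAlgClosed k] (R : Type u) [CommRing R] [IsDomain R] [Algebra k R]
    [Algebra.IsStandardSmoothOfRelativeDimension 1 k R] (m : Ideal R) [hm : m.IsMaximal] :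
    ∃ t ∈ m, m ≤ Ideal.span {t} ⊔ m ^ 2 := by
  haveI : Algebra.IsStandardSmooth k R :=
    Algebra.IsStandardSmoothOfRelativeDimension.isStandardSmooth 1
  letI : Field (R ⧸ m) := Ideal.Quotient.field m
  haveI : Algebra.FiniteType k (R ⧸ m) :=
    Algebra.FiniteType.of_surjective (Ideal.Quotient.mkₐ k m) (Ideal.Quotient.mkₐ_surjective k m)
  haveI : Module.Finite k (R ⧸ m) := finite_of_finite_type_of_isJacobsonRing k (R ⧸ m)
  have hbij : Function.Bijective (algebraMap k (R ⧸ m)) :=
    IsAlgClosed.algebraMap_bijective_of_isIntegral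
  let e : k ≃ₐ[k] (R ⧸ m) := AlgEquiv.ofBijective (Algebra.ofId k (R ⧸ m)) hbij
  haveI : Algebra.FormallySmooth k (R ⧸ m) := Algebra.FormallySmooth.of_equiv e
  obtain ⟨l, hl⟩ := (Algebra.FormallySmooth.iff_split_injection (R := k) (P := R) (A := R ⧸ m)
    Ideal.Quotient.mk_surjective).mp inferInstance
  have hinj : Function.Injective (kerCotangentToTensor k R (R ⧸ m)) :=
    Function.LeftInverse.injective (g := l) (fun x => LinearMap.congr_fun hl x)
  obtain ⟨ω⟩ : Nonempty (Ω[R⁄k] ≃ₗ[R] R) := by
    apply nonempty_linearEquiv_of_rank_eq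
    rw [Algebra.IsStandardSmoothOfRelativeDimension.rank_kaehlerDifferential 1, Module.rank_self]
    simp
  let E : (R ⧸ m) ⊗[R] Ω[R⁄k] ≃ₗ[R] (R ⧸ m) :=
    (TensorProduct.congr (LinearEquiv.refl R (R ⧸ m)) ω).trans (TensorProduct.rid R (R ⧸ m))
  obtain ⟨ι, hι⟩ : ∃ ι : (RingHom.ker (algebraMap R (R ⧸ m))).Cotangent →ₗ[R] (R ⧸ m),
      Function.Injective ι :=
    ⟨E.toLinearMap ∘ₗ kerCotangentToTensor k R (R ⧸ m), E.injective.comp hinj⟩
  have hJ : RingHom.ker (algebraMap R (R ⧸ m)) = m := by
    rw [Ideal.Quotient.algebraMap_eq, Ideal.mk_ker]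
  suffices h : ∃ t ∈ RingHom.ker (algebraMap R (R ⧸ m)), RingHom.ker (algebraMap R (R ⧸ m)) ≤
      Ideal.span {t} ⊔ RingHom.ker (algebraMap R (R ⧸ m)) ^ 2 by
    rwa [hJ] at h
  generalize RingHom.ker (algebraMap R (R ⧸ m)) = J at ι hι
  by_cases h0 : ∀ x : J, ι (J.toCotangent x) = 0
  · refine ⟨0, J.zero_mem, fun x hx => ?_⟩
    have h1 : J.toCotangent ⟨x, hx⟩ = 0 := hι (by rw [h0, map_zero])
    rw [Ideal.toCotangent_eq_zero] at h1
    exact Ideal.mem_sup_right h1
  · push Not at h0
    obtain ⟨t, ht⟩ := h0
    refine ⟨t.1, t.2, fun x hx => ?_⟩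
    obtain ⟨r, hr⟩ := Ideal.Quotient.mk_surjective
      (ι (J.toCotangent ⟨x, hx⟩) / ι (J.toCotangent t))
    have h1 : r • ι (J.toCotangent t) = ι (J.toCotangent ⟨x, hx⟩) := by
      rw [Algebra.smul_def, Ideal.Quotient.algebraMap_eq, hr, div_mul_cancel₀ _ ht]
    have h2 : J.toCotangent (⟨x, hx⟩ - r • t) = 0 := by
      apply hι
      rw [map_sub, map_sub, map_smul, map_smul, h1, sub_self, map_zero]
    rw [Ideal.toCotangent_eq_zero] at h2
    have h3 : x = r * t.1 + (x - r * t.1) := by ring
    rw [h3]
    exact Ideal.add_mem _ (Ideal.mem_sup_left (Ideal.mul_mem_left _ _ (Ideal.mem_span_singleton_self _)))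
      (Ideal.mem_sup_right h2)

/-- the local rings at the maximal ideals are discrete valuation rings. -/
theorem AlgDedekind_isDVR (k : Type u) [Field k]
    [IsAlgClosed k] (R : Type u) [CommRing R] [IsDomain R] [Algebra k R]
    [Algebra.IsStandardSmoothOfRelativeDimension 1 k R] (m : Ideal R) [hm : m.IsMaximal]
    (hm0 : m ≠ ⊥) : IsDiscreteValuationRing (Localization.AtPrime m) := by
  haveI : Algebra.IsStandardSmooth k R :=
    Algebra.IsStandardSmoothOfRelativeDimension.isStandardSmooth 1
  haveI : IsNoetherianRing R := Algebra.FiniteType.isNoetherianRing k R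
  obtain ⟨t, htm, ht⟩ := AlgDedekind_exists_generator k R m
  have hmap : m.map (algebraMap R (Localization.AtPrime m)) =
      IsLocalRing.maximalIdeal (Localization.AtPrime m) := Localization.AtPrime.map_eq_maximalIdeal
  have hinj : Function.Injective (algebraMap R (Localization.AtPrime m)) :=
    IsLocalization.injective (Localization.AtPrime m) m.primeCompl_le_nonZeroDivisors
  have hne : IsLocalRing.maximalIdeal (Localization.AtPrime m) ≠ ⊥ := by
    rw [← hmap]
    exact fun h => hm0 ((m.map_eq_bot_iff_of_injective hinj).mp h)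
  have hfield : ¬ IsField (Localization.AtPrime m) := fun h =>
    hne (IsLocalRing.isField_iff_maximalIdeal_eq.mp h)
  have h1 := Ideal.map_mono (f := algebraMap R (Localization.AtPrime m)) ht
  rw [Ideal.map_sup, Ideal.map_pow, hmap, Ideal.map_span, Set.image_singleton, pow_two] at h1
  have h2 : IsLocalRing.maximalIdeal (Localization.AtPrime m) ≤
      Ideal.span {algebraMap R (Localization.AtPrime m) t} := by
    refine Submodule.le_of_le_smul_of_le_jacobson_bot
      (I := IsLocalRing.maximalIdeal (Localization.AtPrime m))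
      (IsNoetherian.noetherian _) ?_ h1
    rw [IsLocalRing.jacobson_eq_maximalIdeal ⊥ bot_ne_top]
  have h3 : Ideal.span {algebraMap R (Localization.AtPrime m) t} ≤
      IsLocalRing.maximalIdeal (Localization.AtPrime m) := by
    rw [Ideal.span_singleton_le_iff_mem, ← hmap]
    exact Ideal.mem_map_of_mem _ htm
  have h4 : (IsLocalRing.maximalIdeal (Localization.AtPrime m)).IsPrincipal :=
    ⟨⟨_, le_antisymm h2 h3⟩⟩
  exact ((IsDiscreteValuationRing.TFAE (Localization.AtPrime m) hfield).out 4 0).mp h4

end G

/-- **G1** (task S25/G-A1).  `R` is noetherian (finitely presented over a field).  Let `m` be a maximal ideal.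
`R/m = k` (Nullstellensatz, `k` algebraically closed).  `Ω[R⁄k]` is free of rank one
(`Algebra.IsStandardSmoothOfRelativeDimension.rank_kaehlerDifferential`, `Algebra.IsStandardSmooth.free_kaehlerDifferential`).
`m/m² ≅ (R/m) ⊗ Ω[R⁄k]`: `KaehlerDifferential.kerCotangentToTensor` is injective because `R/m = k` is formally
smooth over `k` (`Algebra.FormallySmooth.iff_split_injection`), and surjective because `Ω[(R/m)⁄k] = 0`
(`KaehlerDifferential.exact_kerCotangentToTensor_mapBaseChange`).  So `m/m²` is one dimensional, `m R_m` is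
principal by Nakayama and nonzero, `R_m` is a DVR (`IsLocalRing.finrank_CotangentSpace_eq_one_iff` or
`IsDiscreteValuationRing.TFAE`).  A nonzero prime `P ≤ m` satisfies `P R_m = m R_m`, so `P = m`.
Conclude with `IsDedekindDomainDvr` (`IsDedekindDomainDvr.isDedekindDomain`). -/
theorem isDedekindDomain_of_isStandardSmoothOfRelativeDimension_one (k : Type u) [Field k]
    [IsAlgClosed k] (R : Type u) [CommRing R] [IsDomain R] [Algebra k R]
    [Algebra.IsStandardSmoothOfRelativeDimension 1 k R] : IsDedekindDomain R := by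
  haveI : Algebra.IsStandardSmooth k R :=
    Algebra.IsStandardSmoothOfRelativeDimension.isStandardSmooth 1
  haveI : IsNoetherianRing R := Algebra.FiniteType.isNoetherianRing k R
  haveI : IsDedekindDomainDvr R :=
    { is_dvr_at_nonzero_prime := by
        intro P hP0 hP
        obtain ⟨m, hm, hPm⟩ := P.exists_le_maximal hP.ne_top
        have hm0 : m ≠ ⊥ := fun h => hP0 (le_bot_iff.mp (h ▸ hPm))
        haveI := G.AlgDedekind_isDVR k R m hm0
        have hinj : Function.Injective (algebraMap R (Localization.AtPrime m)) :=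
          IsLocalization.injective (Localization.AtPrime m) m.primeCompl_le_nonZeroDivisors
        have hdisj : Disjoint (m.primeCompl : Set R) (P : Set R) :=
          Set.disjoint_left.mpr fun x hx hxP => hx (hPm hxP)
        have hprime := IsLocalization.isPrime_of_isPrime_disjoint m.primeCompl
          (Localization.AtPrime m) P hP hdisj
        have hne : P.map (algebraMap R (Localization.AtPrime m)) ≠ ⊥ :=
          fun h => hP0 ((P.map_eq_bot_iff_of_injective hinj).mp h)
        have hmax := hprime.isMaximal hne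
        have h1 := IsLocalRing.eq_maximalIdeal hmax
        have h2 := IsLocalization.under_map_of_isPrime_disjoint m.primeCompl
          (Localization.AtPrime m) hP hdisj
        rw [h1, IsLocalization.AtPrime.under_maximalIdeal (Localization.AtPrime m) m] at h2
        subst h2
        infer_instance }
  exact IsDedekindDomainDvr.isDedekindDomain R

end Fermat.Agent.S25
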