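import Fermat.Agent.S25.G.AlgDedekind

/-! # S25 / layer G, task S25/G-A2 : algebra of rings which are locally standard smooth of relative
dimension one over an algebraically closed field (Mathlib + G1 only) -/
set_option autoImplicit false
set_option linter.style.haveILetI false
universe u

namespace Fermat.Agent.S25.G

/-- (task S25/G-A2) `Ω[R⁄k]` has rank one, but it vanishes if `k → R` is surjective
(`KaehlerDifferential.subsingleton_of_surjective`). -/
theorem not_surjective_algebraMap_of_standardSmooth (k : Type u) [Field k] (R : Type u) [CommRing R]
    [Nontrivial R] [Algebra k R] [Algebra.IsStandardSmoothOfRelativeDimension 1 k R] :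
    ¬ Function.Surjective (algebraMap k R) := by
  intro h
  have h1 := Algebra.IsStandardSmoothOfRelativeDimension.rank_kaehlerDifferential (R := k) (S := R) 1
  haveI := KaehlerDifferential.subsingleton_of_surjective k R h
  rw [rank_subsingleton'] at h1
  simp at h1

/-- the localisation of a domain at a nonzero element is a domain. -/
theorem AlgLocal.isDomain_away {R : Type u} [CommRing R] [IsDomain R] {t : R} (ht : t ≠ 0) :
    IsDomain (Localization.Away t) :=
  IsLocalization.isDomain_of_le_nonZeroDivisors (Localization.Away t) (M := Submonoid.powers t)
    (powers_le_nonZeroDivisors_of_noZeroDivisors ht)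

/-- (task S25/G-A2) `R` is a domain covered by basic opens `D(t)` with `R_t` standard smooth of relative
dimension one over `k`.  `R` is noetherian: it is of finite type over `k`
(`RingHom.finiteType_ofLocalizationSpan` / `RingHom.locally_iff...`; or add up generators by hand).
For a prime `P ≠ ⊥` pick `t ∈ s`, `t ∉ P`: `R_P` is the localisation of the Dedekind domain `R_t` (G1) at the
nonzero prime `P R_t`, hence a DVR.  Conclude with `IsDedekindDomainDvr`. -/
theorem isDedekindDomain_of_locally (k : Type u) [Field k] [IsAlgClosed k] (R : Type u) [CommRing R]
    [IsDomain R] (f : k →+* R)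
    (h : RingHom.Locally (RingHom.IsStandardSmoothOfRelativeDimension 1) f) :
    IsDedekindDomain R := by
  have hft : f.FiniteType := by
    rw [← RingHom.locally_iff_of_localizationSpanTarget RingHom.finiteType_respectsIso
      RingHom.finiteType_ofLocalizationSpanTarget]
    refine RingHom.locally_of_locally (fun {R S} _ _ g hg => ?_) h
    letI := g.toAlgebra
    haveI : Algebra.IsStandardSmoothOfRelativeDimension 1 R S := hg
    haveI : Algebra.IsStandardSmooth R S :=
      Algebra.IsStandardSmoothOfRelativeDimension.isStandardSmooth 1
    exact (inferInstance : Algebra.FiniteType R S)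
  haveI hnoeth : IsNoetherianRing R := by
    letI := f.toAlgebra
    haveI : Algebra.FiniteType k R := hft
    exact Algebra.FiniteType.isNoetherianRing k R
  obtain ⟨s, hs, hsm⟩ := h
  haveI : IsDedekindDomainDvr R :=
    { is_dvr_at_nonzero_prime := by
        intro P hP hPp
        obtain ⟨t, hts, htP⟩ : ∃ t ∈ s, t ∉ P := by
          by_contra hcon
          push Not at hcon
          have : Ideal.span s ≤ P := Ideal.span_le.2 hcon
          rw [hs] at this
          exact hPp.ne_top (top_le_iff.1 this)
        have ht0 : t ≠ 0 := fun h0 => htP (h0 ▸ P.zero_mem)
        haveI := AlgLocal.isDomain_away ht0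
        letI : Algebra k (Localization.Away t) :=
          ((algebraMap R (Localization.Away t)).comp f).toAlgebra
        haveI : Algebra.IsStandardSmoothOfRelativeDimension 1 k (Localization.Away t) := hsm t hts
        haveI : IsDedekindDomain (Localization.Away t) :=
          isDedekindDomain_of_isStandardSmoothOfRelativeDimension_one k (Localization.Away t)
        have hdisj : Disjoint (Submonoid.powers t : Set R) (P : Set R) := by
          rw [Set.disjoint_left]
          rintro _ ⟨n, rfl⟩ hmem
          exact htP (hPp.mem_of_pow_mem n hmem)
        haveI hp : (P.map (algebraMap R (Localization.Away t))).IsPrime :=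
          IsLocalization.isPrime_of_isPrime_disjoint (Submonoid.powers t) _ P hPp hdisj
        have hcomap : (P.map (algebraMap R (Localization.Away t))).comap
            (algebraMap R (Localization.Away t)) = P :=
          IsLocalization.under_map_of_isPrime_disjoint (Submonoid.powers t) _ hPp hdisj
        have hne : P.map (algebraMap R (Localization.Away t)) ≠ ⊥ := by
          intro hbot
          rw [hbot] at hcomap
          apply hP
          rw [← hcomap]
          rw [Ideal.comap_bot_of_injective]
          exact IsLocalization.injective (Localization.Away t)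
            (powers_le_nonZeroDivisors_of_noZeroDivisors ht0)
        haveI : IsDiscreteValuationRing
            (Localization.AtPrime (P.map (algebraMap R (Localization.Away t)))) :=
          IsLocalization.AtPrime.isDiscreteValuationRing_of_dedekind_domain
            (Localization.Away t) hne _
        have e := IsLocalization.localizationLocalizationAtPrimeIsoLocalization
          (Submonoid.powers t) (P.map (algebraMap R (Localization.Away t)))
        have key : ∀ (Q : Ideal R) [Q.IsPrime], Q = P →
            Nonempty (Localization.AtPrime Q ≃ₐ[R]
              Localization.AtPrime (P.map (algebraMap R (Localization.Away t)))) →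
            IsDiscreteValuationRing (Localization.AtPrime P) := by
          intro Q _ hQ
          subst hQ
          rintro ⟨e⟩
          exact IsDiscreteValuationRing.RingEquivClass.isDiscreteValuationRing e.symm
        exact key _ hcomap ⟨e⟩ }
  exact IsDedekindDomainDvr.isDedekindDomain R

/-- (task S25/G-A2) if `k → R` is onto then so is `k → R_t` (`t ≠ 0` is the image of a unit of `k`; some
`t ∈ s` is nonzero because `span s = ⊤`, `R` nontrivial). -/
theorem not_surjective_of_locally (k : Type u) [Field k] (R : Type u) [CommRing R]
    [IsDomain R] (f : k →+* R)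
    (h : RingHom.Locally (RingHom.IsStandardSmoothOfRelativeDimension 1) f) :
    ¬ Function.Surjective f := by
  intro hsurj
  obtain ⟨s, hs, hsm⟩ := h
  obtain ⟨t, hts, ht0⟩ : ∃ t ∈ s, t ≠ 0 := by
    by_contra hcon
    push Not at hcon
    have : Ideal.span s ≤ ⊥ := Ideal.span_le.2 (fun t ht => by simpa using hcon t ht)
    rw [hs] at this
    exact top_ne_bot (le_bot_iff.1 this)
  haveI := AlgLocal.isDomain_away ht0
  letI : Algebra k (Localization.Away t) :=
    ((algebraMap R (Localization.Away t)).comp f).toAlgebra
  haveI : Algebra.IsStandardSmoothOfRelativeDimension 1 k (Localization.Away t) := hsm t hts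
  apply not_surjective_algebraMap_of_standardSmooth k (Localization.Away t)
  intro z
  obtain ⟨r, ⟨_, n, rfl⟩, rfl⟩ := IsLocalization.exists_mk'_eq (Submonoid.powers t) z
  obtain ⟨a, rfl⟩ := hsurj r
  obtain ⟨b, rfl⟩ := hsurj t
  have hb : b ≠ 0 := fun h0 => ht0 (by rw [h0, map_zero])
  refine ⟨a * (b ^ n)⁻¹, ?_⟩
  rw [IsLocalization.eq_mk'_iff_mul_eq]
  change algebraMap R (Localization.Away (f b)) (f (a * (b ^ n)⁻¹)) *
    algebraMap R (Localization.Away (f b)) (f b ^ n) = _
  rw [← map_mul, ← map_pow, ← map_mul, mul_assoc, inv_mul_cancel₀ (pow_ne_zero n hb), mul_one]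

/-- (task S25/G-A2) in a domain over an algebraically closed field every element outside `k` is
transcendental. -/
theorem injective_eval₂_of_not_mem_range (k : Type u) [Field k] [IsAlgClosed k] (R : Type u)
    [CommRing R] [IsDomain R] (f : k →+* R) (x : R) (hx : x ∉ f.range) :
    Function.Injective (Polynomial.eval₂RingHom f x) := by
  letI := f.toAlgebra
  rw [injective_iff_map_eq_zero]
  intro p hp
  by_contra hp0
  have halg : IsAlgebraic k x := ⟨p, hp0, hp⟩
  have hint : IsIntegral k x := halg.isIntegral
  have hdeg := IsAlgClosed.degree_eq_one_of_irreducible k (minpoly.irreducible hint)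
  exact hx (minpoly.mem_range_of_degree_eq_one k x hdeg)

end Fermat.Agent.S25.G
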