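import Mathlib

/-! # S25 / layer G, task S25/G-A3 : a nonconstant function on an affine curve is quasi-finite
(Mathlib only) -/
set_option autoImplicit false
set_option linter.style.haveILetI false
universe u

namespace Fermat.Agent.S25.G

/-- (task S25/G-A3) `Spec R → 𝔸¹` has finite fibres.
`Algebra.QuasiFinite.iff_finite_comap_preimage_singleton` (`k[X] → R` is of finite type since `k → R` is).
Fibre over `𝔮 ≠ ⊥`: pick `0 ≠ g ∈ 𝔮`; `g(x) ≠ 0` lies in every prime of the fibre, and a nonzero element of a
Dedekind domain lies in finitely many primes (`Ideal.finite_factors` / finitely many minimal primes + dimension one).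
Fibre over `⊥`: a prime `P ≠ ⊥` is maximal, `R/P` is a field of finite type over `k`, so finite over `k`
(Zariski's lemma `finite_of_finite_type_of_isJacobsonRing`), so `k[X] → R/P` is not injective. -/
theorem quasiFinite_eval₂ (k : Type u) [Field k] (R : Type u) [CommRing R]
    [IsDedekindDomain R] (f : k →+* R) (hf : f.FiniteType) (x : R)
    (hx : Function.Injective (Polynomial.eval₂RingHom f x)) :
    (Polynomial.eval₂RingHom f x).QuasiFinite := by
  letI : Algebra k R := f.toAlgebra
  letI : Algebra (Polynomial k) R := (Polynomial.eval₂RingHom f x).toAlgebra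
  haveI : IsScalarTower k (Polynomial k) R := .of_algebraMap_eq fun r => by
    change f r = Polynomial.eval₂ f x (Polynomial.C r)
    rw [Polynomial.eval₂_C]
  haveI : Algebra.FiniteType k R := hf
  haveI : Algebra.FiniteType (Polynomial k) R :=
    Algebra.FiniteType.of_restrictScalars_finiteType k (Polynomial k) R
  change Algebra.QuasiFinite (Polynomial k) R
  rw [Algebra.QuasiFinite.iff_finite_comap_preimage_singleton]
  intro 𝔮
  by_cases h𝔮 : 𝔮.asIdeal = ⊥
  · -- the generic fibre is `{⊥}`
    refine Set.Finite.subset (Set.finite_singleton (⊥ : PrimeSpectrum R)) ?_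
    intro P hP
    have hP' : P.asIdeal.comap (algebraMap (Polynomial k) R) = ⊥ := by
      rw [← h𝔮, ← (show PrimeSpectrum.comap (algebraMap (Polynomial k) R) P = 𝔮 from hP)]
      rfl
    rw [Set.mem_singleton_iff]
    by_contra hne
    have hne' : P.asIdeal ≠ ⊥ := fun h => hne (PrimeSpectrum.ext h)
    haveI hmax : P.asIdeal.IsMaximal := P.isPrime.isMaximal hne'
    letI : Field (R ⧸ P.asIdeal) := Ideal.Quotient.field P.asIdeal
    haveI : Module.Finite k (R ⧸ P.asIdeal) := finite_of_finite_type_of_isJacobsonRing k _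
    obtain ⟨p, hmonic, hp⟩ := IsIntegral.of_finite k (Ideal.Quotient.mk P.asIdeal x)
    have h1 : p ∈ P.asIdeal.comap (algebraMap (Polynomial k) R) := by
      rw [Ideal.mem_comap, ← Ideal.Quotient.eq_zero_iff_mem]
      change Ideal.Quotient.mk P.asIdeal (Polynomial.eval₂ f x p) = 0
      rw [Polynomial.hom_eval₂]
      exact hp
    rw [hP', Ideal.mem_bot] at h1
    exact hmonic.ne_zero h1
  · obtain ⟨g, hg, hg0⟩ := Submodule.exists_mem_ne_zero_of_ne_bot h𝔮
    have hφg : algebraMap (Polynomial k) R g ≠ 0 := fun h => hg0 (hx (h.trans (map_zero _).symm))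
    have hI : Ideal.span {algebraMap (Polynomial k) R g} ≠ 0 := by
      simpa [Ideal.zero_eq_bot, Ideal.span_singleton_eq_bot] using hφg
    refine Set.Finite.subset ((Ideal.finite_factors hI).image
      (fun v : IsDedekindDomain.HeightOneSpectrum R => (⟨v.asIdeal, v.isPrime⟩ : PrimeSpectrum R))) ?_
    intro P hP
    have hP' : g ∈ P.asIdeal.comap (algebraMap (Polynomial k) R) := by
      have : PrimeSpectrum.comap (algebraMap (Polynomial k) R) P = 𝔮 := hP
      rw [← this] at hg
      exact hg
    have hmem : algebraMap (Polynomial k) R g ∈ P.asIdeal := hP'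
    have hne : P.asIdeal ≠ ⊥ := fun h => hφg (by rw [h] at hmem; exact hmem)
    exact ⟨⟨P.asIdeal, P.isPrime, hne⟩, Ideal.dvd_span_singleton.2 hmem, rfl⟩

end Fermat.Agent.S25.G
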