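import Fermat.Agent.S25.G.ToA1
import Fermat.Agent.S25.G.AlgQF

/-! # S25 / layer G, task S25/G-Finite : `x : U → 𝔸¹` is quasi-finite; finite ⇒ `U` affine and
`Γ(C, U)` finite over `k[X]`. -/
set_option autoImplicit false
set_option linter.style.haveILetI false
universe u
open CategoryTheory CategoryTheory.Limits AlgebraicGeometry

namespace Fermat.Agent.S25.G

variable {k : Type u} [Field k] {C : Scheme.{u}} (c : C ⟶ Spec (CommRingCat.of k))

set_option backward.isDefEq.respectTransparency.types false in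
/-- `LocallyQuasiFinite` is local at the source (`IsZariskiLocalAtSource.iff_of_openCover` /
`HasRingHomProperty`), cover `U` by affine opens `V` of `C`; on `V` use `homOfLE_toA1`, `fromSpec_toA1`,
`HasRingHomProperty.Spec_iff`, `quasiFinite_eval₂` with `isDedekindDomain_sec`, `kSec_finiteType`,
`injective_eval₂_of_not_mem_range` (`s|V ∉ k` because restriction is injective and compatible with `kSec`). -/
theorem locallyQuasiFinite_toA1 [IsAlgClosed k] [SmoothOfRelativeDimension 1 c] [IsIntegral C]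
    [LocallyOfFiniteType c] (U : C.Opens) (s : Γ(C, U)) (hs : s ∉ (kSec c U).range) :
    LocallyQuasiFinite (toA1 c U s) := by
  classical
  -- affine neighbourhoods inside `U`
  have hex : ∀ p : U, ∃ V : C.Opens, IsAffineOpen V ∧ p.1 ∈ V ∧ V ≤ U := by
    intro p
    obtain ⟨_, ⟨V, hV, rfl⟩, hpV, hVU⟩ :=
      C.isBasis_affineOpens.exists_subset_of_mem_open p.2 U.isOpen
    exact ⟨V, hV, hpV, hVU⟩
  choose V hV hpV hVU using hex
  let 𝒰 : U.toScheme.OpenCover := Scheme.Cover.mkOfCovers U (fun p => (V p).toScheme)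
    (fun p => C.homOfLE (hVU p)) (fun x => ⟨x, ⟨x.1, hpV x⟩, by
      rw [Scheme.homOfLE_apply']; rfl⟩) (fun p => inferInstance)
  refine (IsZariskiLocalAtSource.iff_of_openCover 𝒰).mpr (fun p => ?_)
  change LocallyQuasiFinite (C.homOfLE (hVU p) ≫ toA1 c U s)
  rw [homOfLE_toA1]
  have h1 := fromSpec_toA1 c (hV p) (C.presheaf.map (homOfLE (hVU p)).op s)
  rw [Iso.inv_comp_eq] at h1
  rw [h1, MorphismProperty.cancel_left_of_respectsIso (P := @LocallyQuasiFinite),
    HasRingHomProperty.Spec_iff (P := @LocallyQuasiFinite)]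
  haveI : Nonempty (V p) := ⟨⟨_, hpV p⟩⟩
  haveI := isDedekindDomain_sec c (hV p)
  apply quasiFinite_eval₂ k _ _ (kSec_finiteType c (hV p))
  apply injective_eval₂_of_not_mem_range
  rintro ⟨a, ha⟩
  apply hs
  refine ⟨a, ?_⟩
  apply map_injective_of_isIntegral C (homOfLE (hVU p))
  rw [← ha, kSec_res]

/-- `isAffine_of_isAffineHom` -/
theorem isAffineOpen_of_isFinite (U : C.Opens) (s : Γ(C, U)) [IsFinite (toA1 c U s)] :
    IsAffineOpen U := isAffine_of_isAffineHom (toA1 c U s)

/-- `Scheme.Hom.finite_app` / `IsFinite.SpecMap_iff` + `fromSpec_toA1`. -/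
theorem finite_eval₂ (U : C.Opens) (s : Γ(C, U)) [IsFinite (toA1 c U s)] :
    (Polynomial.eval₂RingHom (kSec c U) s).Finite := by
  have hU := isAffineOpen_of_isFinite c U s
  have h1 := fromSpec_toA1 c hU s
  have h2 : IsFinite (hU.isoSpec.inv ≫ toA1 c U s) := inferInstance
  rw [h1, IsFinite.SpecMap_iff] at h2
  exact h2

end Fermat.Agent.S25.G
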