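import Fermat.Agent.S25.G.AlgLocal

/-! # S25 / layer G, task S25/G-Sec : sections of the curve over affine opens, stalks

`c : C ⟶ Spec k`.  `kSec c U : k →+* Γ(C, U)` is the structure map. -/
set_option autoImplicit false
universe u
open CategoryTheory CategoryTheory.Limits AlgebraicGeometry

namespace Fermat.Agent.S25.G

variable {k : Type u} [Field k] {C : Scheme.{u}} (c : C ⟶ Spec (CommRingCat.of k))

/-- the structure map `k → Γ(C, U)` -/
noncomputable def kSec (U : C.Opens) : k →+* Γ(C, U) :=
  ((Scheme.ΓSpecIso (CommRingCat.of k)).inv ≫ c.appLE ⊤ U le_top).hom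

/-- `Scheme.Hom.appLE_map` -/
theorem kSec_res {U V : C.Opens} (h : U ≤ V) (a : k) :
    C.presheaf.map (homOfLE h).op (kSec c V a) = kSec c U a := by
  have h1 : c.appLE ⊤ V le_top ≫ C.presheaf.map (homOfLE h).op = c.appLE ⊤ U le_top :=
    Scheme.Hom.appLE_map _ _ _
  have h2 : ((Scheme.ΓSpecIso (CommRingCat.of k)).inv ≫ c.appLE ⊤ V le_top) ≫
      C.presheaf.map (homOfLE h).op = (Scheme.ΓSpecIso (CommRingCat.of k)).inv ≫ c.appLE ⊤ U le_top := by
    rw [Category.assoc, h1]
  exact congrArg (fun g => g.hom a) h2

/-- `Scheme.Hom.finiteType_appLE` + composition with the isomorphism `k ≅ Γ(Spec k, ⊤)`. -/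
theorem kSec_finiteType [LocallyOfFiniteType c] {U : C.Opens} (hU : IsAffineOpen U) :
    (kSec c U).FiniteType := by
  have h1 : (c.appLE ⊤ U le_top).hom.FiniteType :=
    LocallyOfFiniteType.finiteType_appLE c (isAffineOpen_top _) hU le_top
  have h2 : ((Scheme.ΓSpecIso (CommRingCat.of k)).inv).hom.FiniteType :=
    RingHom.FiniteType.of_surjective _
      (Scheme.ΓSpecIso (CommRingCat.of k)).symm.commRingCatIsoToRingEquiv.surjective
  exact h1.comp h2

/-- `HasRingHomProperty.appLE (@SmoothOfRelativeDimension 1)` with `⊤` (affine) and `U`, then compose with the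
isomorphism `k ≅ Γ(Spec k, ⊤)` (`RingHom.Locally` of a property respecting isomorphisms respects isomorphisms:
`RingHom.locally_respectsIso`, `RingHom.isStandardSmoothOfRelativeDimension_respectsIso`). -/
theorem kSec_locally [SmoothOfRelativeDimension 1 c] {U : C.Opens} (hU : IsAffineOpen U) :
    RingHom.Locally (RingHom.IsStandardSmoothOfRelativeDimension 1) (kSec c U) := by
  have h1 : RingHom.Locally (RingHom.IsStandardSmoothOfRelativeDimension 1) (c.appLE ⊤ U le_top).hom :=
    HasRingHomProperty.appLE (P := @SmoothOfRelativeDimension 1) c inferInstance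
      ⟨⊤, isAffineOpen_top _⟩ ⟨U, hU⟩ le_top
  exact (RingHom.locally_respectsIso RingHom.isStandardSmoothOfRelativeDimension_respectsIso).2
    _ (Scheme.ΓSpecIso (CommRingCat.of k)).symm.commRingCatIsoToRingEquiv h1

variable [IsAlgClosed k] [SmoothOfRelativeDimension 1 c] [IsIntegral C]

include c in
/-- `isDedekindDomain_of_locally` -/
theorem isDedekindDomain_sec {U : C.Opens} (hU : IsAffineOpen U) [Nonempty U] :
    IsDedekindDomain Γ(C, U) :=
  isDedekindDomain_of_locally k Γ(C, U) (kSec c U) (kSec_locally c hU)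

/-- `not_surjective_of_locally` -/
theorem exists_not_mem_range_kSec {U : C.Opens} (hU : IsAffineOpen U) [Nonempty U] :
    ∃ t : Γ(C, U), t ∉ (kSec c U).range := by
  have h := not_surjective_of_locally k Γ(C, U) (kSec c U) (kSec_locally c hU)
  by_contra hcon
  push Not at hcon
  exact h fun t => hcon t

/-- a localisation of a Dedekind domain at a prime is a valuation ring -/
theorem Sec.valuationRing_of_isLocalization (R S : Type*) [CommRing R] [IsDedekindDomain R]
    [CommRing S] [IsDomain S] [Algebra R S] (P : Ideal R) [P.IsPrime] [IsLocalization.AtPrime S P] :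
    ValuationRing S := by
  by_cases hP : P = ⊥
  · have hunit : ∀ z : S, z ≠ 0 → IsUnit z := by
      intro z hz
      obtain ⟨⟨r, s⟩, h⟩ := IsLocalization.surj P.primeCompl z
      have hr : r ∉ P := by
        rw [hP, Ideal.mem_bot]
        rintro rfl
        rw [map_zero] at h
        rcases mul_eq_zero.mp h with h | h
        · exact hz h
        · exact (IsLocalization.map_units S s).ne_zero h
      have h1 : IsUnit (algebraMap R S r) := IsLocalization.map_units S (⟨r, hr⟩ : P.primeCompl)
      rw [← h] at h1
      exact isUnit_of_mul_isUnit_left h1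
    refine { cond' := fun a b => ?_ }
    by_cases ha : a = 0
    · exact ⟨0, Or.inr (by rw [ha, mul_zero])⟩
    · obtain ⟨u, rfl⟩ := hunit a ha
      exact ⟨↑u⁻¹ * b, Or.inl (by rw [← mul_assoc, Units.mul_inv, one_mul])⟩
  · have := IsLocalization.AtPrime.isDiscreteValuationRing_of_dedekind_domain R hP S
    infer_instance

include c in
theorem Sec.valuationRing_stalk_of_mem {U : C.Opens} (hU : IsAffineOpen U) (y : U) :
    ValuationRing (C.presheaf.stalk (y : C)) := by
  have : Nonempty U := ⟨y⟩
  have hD := isDedekindDomain_sec c hU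
  have hloc := hU.isLocalization_stalk y
  exact Sec.valuationRing_of_isLocalization Γ(C, U) (C.presheaf.stalk (y : C))
    (hU.primeIdealOf y).asIdeal

include c in
/-- choose an affine open `U ∋ p`; the stalk is the localisation of the Dedekind domain `Γ(C, U)` at a prime
(`IsAffineOpen.isLocalization_stalk`): a field or a DVR. -/
theorem valuationRing_stalk (p : C) : ValuationRing (C.presheaf.stalk p) := by
  obtain ⟨_, ⟨U, hU', rfl⟩, hpU, -⟩ :=
    C.isBasis_affineOpens.exists_subset_of_mem_open (Set.mem_univ p) isOpen_univ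
  exact Sec.valuationRing_stalk_of_mem c hU' ⟨p, hpU⟩

end Fermat.Agent.S25.G
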