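import Fermat.Agent.S25.SchemeDefs
import Fermat.Agent.S25.G.Sec

/-! # S25 / layer G : from two affine charts of `C` to `CurveAlg` (definitions; `ev_kSec` belongs to task
S25/G-PackGood). -/
set_option autoImplicit false
universe u
open CategoryTheory CategoryTheory.Limits AlgebraicGeometry AlgebraicGeometry.RelPicard
  NeronModelInfra GoodReductionJacobian TensorProduct

namespace Fermat.Agent.S25.G

variable {k : Type u} [Field k] {C : Scheme.{u}} (c : C ⟶ Spec (CommRingCat.of k))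
  (ε : SchemeHomOver (𝟙 (Spec (CommRingCat.of k))) c)

/-- two affine charts `U₀ ∋ ε`, `U₁` of `C` with coordinates `s₀`, `s₁ = 1/s₀`. -/
structure ChartData where
  U₀ : C.Opens
  U₁ : C.Opens
  aff₀ : IsAffineOpen U₀
  aff₁ : IsAffineOpen U₁
  s₀ : Γ(C, U₀)
  s₁ : Γ(C, U₁)
  cover : U₀ ⊔ U₁ = ⊤
  basic₀ : C.basicOpen s₀ = U₀ ⊓ U₁
  basic₁ : C.basicOpen s₁ = U₀ ⊓ U₁
  mul : C.presheaf.map (homOfLE (inf_le_left : U₀ ⊓ U₁ ≤ U₀)).op s₀ *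
      C.presheaf.map (homOfLE (inf_le_right : U₀ ⊓ U₁ ≤ U₁)).op s₁ = 1
  base : ⊤ ≤ ε.1 ⁻¹ᵁ U₀
  fin₀ : (Polynomial.eval₂RingHom (kSec c U₀) s₀).Finite
  fin₁ : (Polynomial.eval₂RingHom (kSec c U₁) s₁).Finite
  inj₀ : Function.Injective (Polynomial.eval₂RingHom (kSec c U₀) s₀)
  inj₁ : Function.Injective (Polynomial.eval₂RingHom (kSec c U₁) s₁)

namespace ChartData

variable {c ε} (D : ChartData c ε)

/-- evaluation at the base point, `Γ(C, U₀) → k`. -/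
noncomputable def ev : Γ(C, D.U₀) →+* k :=
  (ε.1.appLE D.U₀ ⊤ D.base ≫ (Scheme.ΓSpecIso (CommRingCat.of k)).hom).hom

/-- `ε.1 ≫ c = 𝟙` (`ε.2`), `Scheme.Hom.appLE_comp_appLE`/`comp_appLE`. -/
theorem ev_kSec (a : k) : D.ev (kSec c D.U₀ a) = a := by
  have h0 : ∀ (f : Spec (CommRingCat.of k) ⟶ Spec (CommRingCat.of k)) (_ : f = 𝟙 _)
      (e : (⊤ : (Spec (CommRingCat.of k)).Opens) ≤ f ⁻¹ᵁ ⊤), f.appLE ⊤ ⊤ e = 𝟙 _ := by
    intro f hf e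
    subst hf
    simp only [Scheme.Hom.appLE, Scheme.Hom.id_app]
    exact (Spec (CommRingCat.of k)).presheaf.map_id _
  have h1 : c.appLE ⊤ D.U₀ le_top ≫ ε.1.appLE D.U₀ ⊤ D.base = 𝟙 _ :=
    (Scheme.Hom.appLE_comp_appLE ε.1 c ⊤ D.U₀ ⊤ le_top D.base).trans (h0 _ ε.2 _)
  have h3 : ((Scheme.ΓSpecIso (CommRingCat.of k)).inv ≫ c.appLE ⊤ D.U₀ le_top) ≫
      (ε.1.appLE D.U₀ ⊤ D.base ≫ (Scheme.ΓSpecIso (CommRingCat.of k)).hom) = 𝟙 _ := by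
    rw [Category.assoc, reassoc_of% h1, Iso.inv_hom_id]
  exact congrArg (fun f => f.hom a) h3

/-- the algebraic presentation attached to the charts. -/
noncomputable def curveAlg : CurveAlg k :=
  letI a₀ : Algebra k Γ(C, D.U₀) := (kSec c D.U₀).toAlgebra
  letI a₁ : Algebra k Γ(C, D.U₁) := (kSec c D.U₁).toAlgebra
  letI a₀₁ : Algebra k Γ(C, D.U₀ ⊓ D.U₁) := (kSec c (D.U₀ ⊓ D.U₁)).toAlgebra
  { B₀ := Γ(C, D.U₀)
    B₁ := Γ(C, D.U₁)
    B₀₁ := Γ(C, D.U₀ ⊓ D.U₁)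
    algebra₀ := a₀
    algebra₁ := a₁
    algebra₀₁ := a₀₁
    ι₀ := { (C.presheaf.map (homOfLE (inf_le_left : D.U₀ ⊓ D.U₁ ≤ D.U₀)).op).hom with
      commutes' := fun a => kSec_res c _ a }
    ι₁ := { (C.presheaf.map (homOfLE (inf_le_right : D.U₀ ⊓ D.U₁ ≤ D.U₁)).op).hom with
      commutes' := fun a => kSec_res c _ a }
    x := D.s₀
    y := D.s₁
    e₀ := { D.ev with commutes' := fun a => D.ev_kSec a } }

end ChartData

end Fermat.Agent.S25.G
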