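import Fermat.Agent.S25.G.Valuative

/-! # S25 / layer G, task S25/G-Proper : `x : U₀ → 𝔸¹` is proper. -/
set_option autoImplicit false
universe u
open CategoryTheory CategoryTheory.Limits AlgebraicGeometry

namespace Fermat.Agent.S25.G

variable {k : Type u} [Field k] {C : Scheme.{u}} (c : C ⟶ Spec (CommRingCat.of k))

/-- `C` is a noetherian scheme (`LocallyOfFiniteType.isLocallyNoetherian`, `QuasiCompact c`), so every open is
quasi-compact. -/
theorem compactSpace_opens [IsProper c] (U : C.Opens) : CompactSpace U := by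
  have h1 : IsLocallyNoetherian C := LocallyOfFiniteType.isLocallyNoetherian c
  have h2 : CompactSpace C := QuasiCompact.compactSpace_of_compactSpace c
  have h3 : IsNoetherian C := { }
  have h4 : TopologicalSpace.NoetherianSpace C := inferInstance
  exact isCompact_iff_compactSpace.mp (TopologicalSpace.NoetherianSpace.isCompact (U : Set C))

/-- separated, of finite type: cancellation from `toA1_comp` (`IsSeparated.of_comp`,
`LocallyOfFiniteType` cancellation); quasi-compact: `compactSpace_opens`; universally closed: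
`UniversallyClosed.of_valuativeCriterion`. -/
theorem isProper_toA1 [IsProper c] (U₀ U₁ : C.Opens) (hcov : U₀ ⊔ U₁ = ⊤)
    (s₀ : Γ(C, U₀)) (s₁ : Γ(C, U₁))
    (hmul : C.presheaf.map (homOfLE (inf_le_left : U₀ ⊓ U₁ ≤ U₀)).op s₀ *
      C.presheaf.map (homOfLE (inf_le_right : U₀ ⊓ U₁ ≤ U₁)).op s₁ = 1)
    (hb : C.basicOpen s₁ ≤ U₀) : IsProper (toA1 c U₀ s₀) := by
  have hcomp : toA1 c U₀ s₀ ≫ A1ToBase k = U₀.ι ≫ c := toA1_comp c U₀ s₀
  have hsep : IsSeparated (toA1 c U₀ s₀ ≫ A1ToBase k) := by rw [hcomp]; infer_instance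
  have hft : LocallyOfFiniteType (toA1 c U₀ s₀ ≫ A1ToBase k) := by rw [hcomp]; infer_instance
  have h1 : IsSeparated (toA1 c U₀ s₀) := IsSeparated.of_comp _ (A1ToBase k)
  have h2 : LocallyOfFiniteType (toA1 c U₀ s₀) := locallyOfFiniteType_of_comp _ (A1ToBase k)
  have h3 : CompactSpace U₀ := compactSpace_opens c U₀
  have h4 : QuasiCompact (toA1 c U₀ s₀) := quasiCompact_of_compactSpace _
  have h5 : UniversallyClosed (toA1 c U₀ s₀) :=
    UniversallyClosed.of_valuativeCriterion _ (toA1_existence c U₀ U₁ hcov s₀ s₁ hmul hb)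
  exact { }

end Fermat.Agent.S25.G
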