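import Fermat.Agent.S25.G.Reg
import Fermat.Agent.S25.G.Proper
import Fermat.Agent.S25.G.Finite
import Fermat.Agent.S25.G.Package

/-! # S25 / layer G : assembly, existence of the two charts -/
set_option autoImplicit false
set_option linter.style.haveILetI false
set_option linter.unusedSectionVars false
universe u
open CategoryTheory CategoryTheory.Limits AlgebraicGeometry AlgebraicGeometry.RelPicard
  NeronModelInfra GoodReductionJacobian TensorProduct

namespace Fermat.Agent.S25.G

variable {k : Type u} [Field k] [IsAlgClosed k] {C : Scheme.{u}} (c : C ⟶ Spec (CommRingCat.of k))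
  [IsProper c] [SmoothOfRelativeDimension 1 c] [IsIntegral C]

/-- one chart -/
theorem chart_half {x y : C.functionField} (hxy : x * y = 1)
    (hx : regSec x ∉ (kSec c (regLocus x)).range) :
    IsAffineOpen (regLocus x) ∧
      (Polynomial.eval₂RingHom (kSec c (regLocus x)) (regSec x)).Finite ∧
      Function.Injective (Polynomial.eval₂RingHom (kSec c (regLocus x)) (regSec x)) := by
  have hval := valuationRing_stalk c
  haveI : IsProper (toA1 c (regLocus x) (regSec x)) :=
    isProper_toA1 c (regLocus x) (regLocus y) (regLocus_sup_regLocus hval hxy) (regSec x) (regSec y)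
      (regSec_mul_regSec hxy)
      (by rw [basicOpen_regSec (x := y) (y := x) (by rw [mul_comm]; exact hxy)]; exact inf_le_right)
  haveI : LocallyQuasiFinite (toA1 c (regLocus x) (regSec x)) :=
    locallyQuasiFinite_toA1 c _ _ hx
  haveI : IsFinite (toA1 c (regLocus x) (regSec x)) := IsFinite.of_isProper_of_locallyQuasiFinite _
  exact ⟨isAffineOpen_of_isFinite c _ (regSec x), finite_eval₂ c _ _,
    injective_eval₂_of_not_mem_range k _ _ _ hx⟩

theorem kSec_injective_res {U V : C.Opens} (h : U ≤ V) (hU : genericPoint C ∈ U) {s : Γ(C, V)} {a : k}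
    (hs : C.presheaf.map (homOfLE h).op s = kSec c U a) : s = kSec c V a := by
  haveI : Nonempty U := ⟨⟨_, hU⟩⟩
  apply map_injective_of_isIntegral C (homOfLE h)
  rw [hs, kSec_res]

theorem nonempty_chartData (ε : SchemeHomOver (𝟙 (Spec (CommRingCat.of k))) c) :
    Nonempty (ChartData c ε) := by
  have hval := valuationRing_stalk c
  -- an affine neighbourhood of the base point
  let z : Spec (CommRingCat.of k) := IsLocalRing.closedPoint k
  obtain ⟨_, ⟨V, hV, rfl⟩, hzV, -⟩ :=
    C.isBasis_affineOpens.exists_subset_of_mem_open (Set.mem_univ (ε.1 z)) isOpen_univ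
  haveI : Nonempty V := ⟨⟨_, hzV⟩⟩
  have hηV : genericPoint C ∈ V :=
    ((genericPoint_spec C).mem_open_set_iff V.isOpen).mpr ⟨_, trivial, hzV⟩
  obtain ⟨t, ht⟩ := exists_not_mem_range_kSec c hV
  set x : C.functionField := C.presheaf.germ V (genericPoint C) hηV t with hx
  have ht0 : t ≠ 0 := by
    rintro rfl
    exact ht ⟨0, map_zero _⟩
  have hx0 : x ≠ 0 := by
    intro h
    apply ht0
    apply sec_ext hηV
    rw [map_zero]; exact h
  have hxy : x * x⁻¹ = 1 := mul_inv_cancel₀ hx0
  have hyx : x⁻¹ * x = 1 := inv_mul_cancel₀ hx0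
  have hVU : V ≤ regLocus x := le_regLocus hηV t
  have h0 : regSec x ∉ (kSec c (regLocus x)).range := by
    rintro ⟨a, ha⟩
    apply ht
    refine ⟨a, ?_⟩
    rw [← regSec_res hηV t, ← kSec_res c hVU a, ha]
  have hη : genericPoint C ∈ regLocus x ⊓ regLocus x⁻¹ :=
    ⟨genericPoint_mem_regLocus x, genericPoint_mem_regLocus x⁻¹⟩
  have h1 : regSec x⁻¹ ∉ (kSec c (regLocus x⁻¹)).range := by
    rintro ⟨a, ha⟩
    apply h0
    have hm := regSec_mul_regSec hxy
    rw [← ha, kSec_res] at hm
    have ha0 : a ≠ 0 := by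
      rintro rfl
      rw [map_zero, mul_zero] at hm
      haveI : Nonempty (regLocus x ⊓ regLocus x⁻¹ : C.Opens) := ⟨⟨_, hη⟩⟩
      exact zero_ne_one hm
    refine ⟨a⁻¹, (kSec_injective_res c inf_le_left hη ?_).symm⟩
    calc _ = C.presheaf.map (homOfLE inf_le_left).op (regSec x) *
          (kSec c (regLocus x ⊓ regLocus x⁻¹) a * kSec c (regLocus x ⊓ regLocus x⁻¹) a⁻¹) := by
            rw [← map_mul, mul_inv_cancel₀ ha0, map_one, mul_one]
      _ = _ := by rw [← mul_assoc, hm, one_mul]
  obtain ⟨a0, f0, i0⟩ := chart_half c hxy h0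
  obtain ⟨a1, f1, i1⟩ := chart_half c hyx h1
  refine ⟨{
    U₀ := regLocus x
    U₁ := regLocus x⁻¹
    aff₀ := a0
    aff₁ := a1
    s₀ := regSec x
    s₁ := regSec x⁻¹
    cover := regLocus_sup_regLocus hval hxy
    basic₀ := basicOpen_regSec hxy
    basic₁ := by rw [basicOpen_regSec hyx, inf_comm]
    mul := regSec_mul_regSec hxy
    base := ?_
    fin₀ := f0
    fin₁ := f1
    inj₀ := i0
    inj₁ := i1 }⟩
  intro w _
  have : w = z := Subsingleton.elim _ _
  rw [this]
  exact hVU hzV

end Fermat.Agent.S25.G
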