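import Mathlib

/-! # S25 / G1 : a domain which is standard smooth of relative dimension one over an
algebraically closed field is a Dedekind domain -/
set_option autoImplicit false
universe u

namespace Fermat.Agent.S25

open IsLocalRing TensorProduct KaehlerDifferential

/-- Local-to-global: a noetherian domain all of whose localisations at maximal ideals have a
principal maximal ideal is a Dedekind domain. -/
theorem isDedekindDomain_of_forall_isPrincipal_maximalIdeal (R : Type u) [CommRing R] [IsDomain R]
    [IsNoetherianRing R]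
    (h : ∀ (m : Ideal R) [m.IsMaximal], (maximalIdeal (Localization.AtPrime m)).IsPrincipal) :
    IsDedekindDomain R := by
  have hmax : ∀ P : Ideal R, P ≠ ⊥ → P.IsPrime → P.IsMaximal := by
    intro P hP0 hPp
    obtain ⟨m, hm, hPm⟩ := Ideal.exists_le_maximal P hPp.ne_top
    have h4 := ((tfae_of_isNoetherianRing_of_isLocalRing_of_isDomain
      (Localization.AtPrime m)).out 4 3).mp (h m)
    have hdisj : Disjoint (m.primeCompl : Set R) (P : Set R) := by
      rw [Set.disjoint_left]
      intro x hx hxP
      exact hx (hPm hxP)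
    have hprime : (P.map (algebraMap R (Localization.AtPrime m))).IsPrime :=
      IsLocalization.isPrime_of_isPrime_disjoint m.primeCompl _ P hPp hdisj
    have hne : P.map (algebraMap R (Localization.AtPrime m)) ≠ ⊥ := by
      intro h0
      apply hP0
      rw [Ideal.map_eq_bot_iff_of_injective
        (IsLocalization.injective (Localization.AtPrime m) m.primeCompl_le_nonZeroDivisors)] at h0
      exact h0
    have heq := h4.2 _ hne hprime
    have h1 := IsLocalization.comap_map_of_isPrime_disjoint m.primeCompl
      (Localization.AtPrime m) hPp hdisj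
    rw [heq, IsLocalization.AtPrime.comap_maximalIdeal (Localization.AtPrime m) m] at h1
    rw [← h1]
    exact hm
  have : IsDedekindDomainDvr R :=
    { is_dvr_at_nonzero_prime := by
        intro P hP0 hPp
        have hm := hmax P hP0 hPp
        have hnf : ¬ IsField (Localization.AtPrime P) :=
          IsLocalization.AtPrime.not_isField R hP0 _
        exact ((IsDiscreteValuationRing.TFAE (Localization.AtPrime P) hnf).out 4 0).mp (h P) }
  infer_instance

/-- Nakayama step: if `m = (t) + m²` then the maximal ideal of `R_m` is principal. -/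
theorem isPrincipal_maximalIdeal_of_le_span_sup_sq (R : Type u) [CommRing R]
    [IsNoetherianRing R] (m : Ideal R) [m.IsMaximal] (t : R) (ht : t ∈ m)
    (h : m ≤ Ideal.span {t} ⊔ m ^ 2) :
    (maximalIdeal (Localization.AtPrime m)).IsPrincipal := by
  set A := Localization.AtPrime m
  have hmap : maximalIdeal A = m.map (algebraMap R A) :=
    (Localization.AtPrime.map_eq_maximalIdeal).symm
  have h1 : maximalIdeal A ≤ Ideal.span {algebraMap R A t} ⊔ maximalIdeal A • maximalIdeal A := by
    have := Ideal.map_mono (f := algebraMap R A) h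
    rw [Ideal.map_sup, Ideal.map_pow, Ideal.map_span, Set.image_singleton, ← hmap, pow_two] at this
    exact this
  have h2 : maximalIdeal A ≤ Ideal.span {algebraMap R A t} :=
    Submodule.le_of_le_smul_of_le_jacobson_bot (IsNoetherian.noetherian _)
      (IsLocalRing.maximalIdeal_le_jacobson _) h1
  have h3 : Ideal.span {algebraMap R A t} ≤ maximalIdeal A := by
    rw [Ideal.span_singleton_le_iff_mem, hmap]
    exact Ideal.mem_map_of_mem _ ht
  exact ⟨⟨_, le_antisymm h2 h3⟩⟩

/-- At a `k`-rational maximal ideal of a smooth curve the cotangent space is generated by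
one element. -/
theorem exists_le_span_sup_sq (k : Type u) [Field k]
    [IsAlgClosed k] (R : Type u) [CommRing R] [IsDomain R] [Algebra k R]
    [Algebra.IsStandardSmoothOfRelativeDimension 1 k R] (m : Ideal R) [m.IsMaximal] :
    ∃ t ∈ m, m ≤ Ideal.span {t} ⊔ m ^ 2 := by
  have hst : Algebra.IsStandardSmooth k R :=
    Algebra.IsStandardSmoothOfRelativeDimension.isStandardSmooth 1
  have hft : Algebra.FiniteType k R := inferInstance
  let : Field (R ⧸ m) := Ideal.Quotient.field m
  have hfin : Module.Finite k (R ⧸ m) := finite_of_finite_type_of_isJacobsonRing k (R ⧸ m)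
  have hbij : Function.Bijective (algebraMap k (R ⧸ m)) :=
    IsAlgClosed.algebraMap_bijective_of_isIntegral
  have hsurj : Function.Surjective (algebraMap R (R ⧸ m)) := Ideal.Quotient.mk_surjective
  have hker : RingHom.ker (algebraMap R (R ⧸ m)) = m := Ideal.mk_ker
  have hsm : Algebra.FormallySmooth k (R ⧸ m) := inferInstance
  obtain ⟨l, hl⟩ := (Algebra.FormallySmooth.iff_split_injection (R := k) (P := R)
    (A := R ⧸ m) hsurj).mp hsm
  have hinj : Function.Injective (kerCotangentToTensor k R (R ⧸ m)) := by
    intro x y hxy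
    have := congrArg l hxy
    rwa [← LinearMap.comp_apply, ← LinearMap.comp_apply, hl] at this
  have hsub : Subsingleton (Ω[(R ⧸ m)⁄k]) :=
    KaehlerDifferential.subsingleton_of_surjective k (R ⧸ m) hbij.2
  have hsurj' : Function.Surjective (kerCotangentToTensor k R (R ⧸ m)) := by
    intro y
    exact (exact_kerCotangentToTensor_mapBaseChange k R (R ⧸ m) hsurj y).mp
      (Subsingleton.elim _ _)
  have hrank : Module.rank R (Ω[R⁄k]) = 1 := by
    simpa using Algebra.IsStandardSmoothOfRelativeDimension.rank_kaehlerDifferential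
      (R := k) (S := R) 1
  obtain ⟨ω, -, hω⟩ := rank_eq_one_iff.mp hrank
  have hgen : ∀ y : (R ⧸ m) ⊗[R] Ω[R⁄k], ∃ r : R, r • ((1 : R ⧸ m) ⊗ₜ[R] ω) = y := by
    intro y
    induction y with
    | zero => exact ⟨0, zero_smul _ _⟩
    | tmul s w =>
      obtain ⟨a, rfl⟩ := Ideal.Quotient.mk_surjective s
      obtain ⟨b, rfl⟩ := hω w
      refine ⟨a * b, ?_⟩
      rw [mul_smul, ← TensorProduct.tmul_smul, TensorProduct.smul_tmul']
      congr 1
      rw [Algebra.smul_def, mul_one]
      rfl
    | add y₁ y₂ h₁ h₂ =>
      obtain ⟨r₁, rfl⟩ := h₁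
      obtain ⟨r₂, rfl⟩ := h₂
      exact ⟨r₁ + r₂, add_smul _ _ _⟩
  obtain ⟨c, hc⟩ := hsurj' ((1 : R ⧸ m) ⊗ₜ[R] ω)
  obtain ⟨t, rfl⟩ := Ideal.toCotangent_surjective _ c
  obtain ⟨t, ht⟩ := t
  refine ⟨t, hker.le ht, ?_⟩
  intro x hx
  have hx' : x ∈ RingHom.ker (algebraMap R (R ⧸ m)) := hker.symm ▸ hx
  obtain ⟨r, hr⟩ := hgen (kerCotangentToTensor k R (R ⧸ m) (Ideal.toCotangent _ ⟨x, hx'⟩))
  rw [← hc, ← map_smul, ← map_smul] at hr
  have h0 := hinj hr
  rw [Ideal.toCotangent_eq] at h0
  have h0' : r * t - x ∈ m ^ 2 := by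
    have := (Ideal.pow_right_mono hker.le 2) h0
    simpa using this
  have h1 : x = r * t - (r * t - x) := by ring
  rw [h1]
  refine Ideal.sub_mem _ (Ideal.mem_sup_left ?_) (Ideal.mem_sup_right ?_)
  · exact Ideal.mul_mem_left _ _ (Ideal.mem_span_singleton_self _)
  · exact h0'

/-- **G1.** A domain which is standard smooth of relative dimension one over an algebraically
closed field is a Dedekind domain. -/
theorem isDedekindDomain_of_isStandardSmoothOfRelativeDimension_one' (k : Type u) [Field k]
    [IsAlgClosed k] (R : Type u) [CommRing R] [IsDomain R] [Algebra k R]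
    [Algebra.IsStandardSmoothOfRelativeDimension 1 k R] : IsDedekindDomain R := by
  have hst : Algebra.IsStandardSmooth k R :=
    Algebra.IsStandardSmoothOfRelativeDimension.isStandardSmooth 1
  have hft : Algebra.FiniteType k R := inferInstance
  have hn : IsNoetherianRing R := Algebra.FiniteType.isNoetherianRing k R
  refine isDedekindDomain_of_forall_isPrincipal_maximalIdeal R fun m _ => ?_
  obtain ⟨t, ht, h⟩ := exists_le_span_sup_sq k R m
  exact isPrincipal_maximalIdeal_of_le_span_sup_sq R m t ht h

end Fermat.Agent.S25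

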