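import Mathlib

/-! # S25 / layer G, task S25/G-Reg : the domain of regularity of a rational function on an integral scheme
(Mathlib only).

`X` integral, `x ∈ K(X)`.  `regLocus x` is the union of all opens `V` carrying a section with germ `x` at the
generic point; these sections are unique (`germ_injective_of_isIntegral`), hence compatible, hence glue
(`TopCat.Sheaf.existsUnique_gluing'` for `X.sheaf`) to `regSec x ∈ Γ(X, regLocus x)`. -/
set_option autoImplicit false
universe u
open CategoryTheory CategoryTheory.Limits AlgebraicGeometry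

namespace Fermat.Agent.S25.G

variable {X : Scheme.{u}} [IsIntegral X]

/-- the open set where the rational function `x` is regular. -/
def regLocus (x : X.functionField) : X.Opens :=
  ⨆ V : {V : X.Opens // ∃ (h : genericPoint X ∈ V) (s : Γ(X, V)),
    X.presheaf.germ V (genericPoint X) h s = x}, V.1

/-- `X.presheaf.exists_germ_eq` -/
theorem genericPoint_mem_regLocus (x : X.functionField) : genericPoint X ∈ regLocus x := by
  obtain ⟨V, hV, s, hs⟩ := X.presheaf.exists_germ_eq x
  unfold regLocus
  rw [TopologicalSpace.Opens.mem_iSup]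
  exact ⟨⟨V, hV, s, hs⟩, hV⟩

instance nonempty_regLocus (x : X.functionField) : Nonempty (regLocus x) :=
  ⟨⟨_, genericPoint_mem_regLocus x⟩⟩

theorem le_regLocus {V : X.Opens} (h : genericPoint X ∈ V) (s : Γ(X, V)) :
    V ≤ regLocus (X.presheaf.germ V (genericPoint X) h s) :=
  le_iSup (fun W : {W : X.Opens // ∃ (h' : genericPoint X ∈ W) (s' : Γ(X, W)),
    X.presheaf.germ W (genericPoint X) h' s' = X.presheaf.germ V (genericPoint X) h s} => W.1)
    ⟨V, h, s, rfl⟩

/-- gluing -/
theorem exists_regSec (x : X.functionField) : ∃ s : Γ(X, regLocus x),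
    X.presheaf.germ (regLocus x) (genericPoint X) (genericPoint_mem_regLocus x) s = x := by
  let ι := {V : X.Opens // ∃ (h : genericPoint X ∈ V) (s : Γ(X, V)),
    X.presheaf.germ V (genericPoint X) h s = x}
  let U : ι → X.Opens := fun V => V.1
  have hmem : ∀ i : ι, genericPoint X ∈ U i := fun i => i.2.choose
  let sf : ∀ i : ι, Γ(X, U i) := fun i => i.2.choose_spec.choose
  have hsf : ∀ i : ι, X.presheaf.germ (U i) (genericPoint X) (hmem i) (sf i) = x :=
    fun i => i.2.choose_spec.choose_spec
  have hcompat : TopCat.Presheaf.IsCompatible X.sheaf.1 U sf := by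
    intro i j
    apply germ_injective_of_isIntegral X (genericPoint X) (⟨hmem i, hmem j⟩ : _ ∈ U i ⊓ U j)
    have h1 := X.presheaf.germ_res_apply (TopologicalSpace.Opens.infLELeft (U i) (U j))
      (genericPoint X) ⟨hmem i, hmem j⟩ (sf i)
    have h2 := X.presheaf.germ_res_apply (TopologicalSpace.Opens.infLERight (U i) (U j))
      (genericPoint X) ⟨hmem i, hmem j⟩ (sf j)
    exact h1.trans ((hsf i).trans ((hsf j).symm.trans h2.symm))
  obtain ⟨s, hs, -⟩ := X.sheaf.existsUnique_gluing' U (regLocus x)
    (fun i => homOfLE (le_iSup U i)) le_rfl sf hcompat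
  refine ⟨s, ?_⟩
  obtain ⟨V, hV, t, ht⟩ := X.presheaf.exists_germ_eq x
  let i₀ : ι := ⟨V, hV, t, ht⟩
  have h3 := X.presheaf.germ_res_apply (homOfLE (le_iSup U i₀)) (genericPoint X) (hmem i₀) s
  have h4 : X.presheaf.map (homOfLE (le_iSup U i₀)).op s = sf i₀ := hs i₀
  rw [h4, hsf] at h3
  exact h3.symm

/-- `x` as a section over `regLocus x`. -/
noncomputable def regSec (x : X.functionField) : Γ(X, regLocus x) := (exists_regSec x).choose

theorem germ_regSec (x : X.functionField) :
    X.presheaf.germ (regLocus x) (genericPoint X) (genericPoint_mem_regLocus x) (regSec x) = x :=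
  (exists_regSec x).choose_spec

/-- two sections over a nonempty open with the same germ at the generic point are equal. -/
theorem sec_ext {V : X.Opens} (h : genericPoint X ∈ V) {s t : Γ(X, V)}
    (hst : X.presheaf.germ V (genericPoint X) h s = X.presheaf.germ V (genericPoint X) h t) :
    s = t := germ_injective_of_isIntegral X _ h hst

theorem regSec_res {V : X.Opens} (h : genericPoint X ∈ V) (s : Γ(X, V)) :
    X.presheaf.map (homOfLE (le_regLocus h s)).op
      (regSec (X.presheaf.germ V (genericPoint X) h s)) = s := by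
  apply sec_ext h
  rw [X.presheaf.germ_res_apply]
  exact germ_regSec _

theorem Reg.algebraMap_germ {V : X.Opens} (p : X) (hp : p ∈ V) (hg : genericPoint X ∈ V)
    (s : Γ(X, V)) :
    algebraMap (X.presheaf.stalk p) X.functionField (X.presheaf.germ V p hp s) =
      X.presheaf.germ V (genericPoint X) hg s := by
  have h := X.presheaf.germ_stalkSpecializes hp ((genericPoint_spec X).specializes trivial)
  exact congrArg (fun f => f.hom s) h

theorem Reg.genericPoint_mem {V : X.Opens} {p : X} (hp : p ∈ V) : genericPoint X ∈ V :=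
  ((genericPoint_spec X).specializes trivial : genericPoint X ⤳ p).mem_open V.isOpen hp

/-- `p ∈ regLocus x` iff `x` comes from the stalk at `p`. -/
theorem mem_regLocus_iff (x : X.functionField) (p : X) :
    p ∈ regLocus x ↔ x ∈ (algebraMap (X.presheaf.stalk p) X.functionField).range := by
  constructor
  · intro hp
    refine ⟨X.presheaf.germ (regLocus x) p hp (regSec x), ?_⟩
    rw [Reg.algebraMap_germ p hp (genericPoint_mem_regLocus x)]
    exact germ_regSec x
  · rintro ⟨t, rfl⟩
    obtain ⟨V, hV, s, rfl⟩ := X.presheaf.exists_germ_eq t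
    rw [Reg.algebraMap_germ p hV (Reg.genericPoint_mem hV)]
    exact le_regLocus _ s hV

/-- if all stalks are valuation rings (of `K(X)`: instance `IsFractionRing (stalk p) K(X)`), then
`x` or `y = x⁻¹` is regular at each point (`ValuationRing.isInteger_or_isInteger`). -/
theorem regLocus_sup_regLocus (hval : ∀ p : X, ValuationRing (X.presheaf.stalk p))
    {x y : X.functionField} (hxy : x * y = 1) : regLocus x ⊔ regLocus y = ⊤ := by
  rw [eq_top_iff]
  intro p _
  have := hval p
  have hy : y = x⁻¹ := eq_inv_of_mul_eq_one_right hxy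
  rcases ValuationRing.isInteger_or_isInteger (X.presheaf.stalk p) x with h | h
  · exact Or.inl ((mem_regLocus_iff x p).2 h)
  · exact Or.inr ((mem_regLocus_iff y p).2 (hy ▸ h))

/-- `x * y = 1` on the overlap (`sec_ext`). -/
theorem regSec_mul_regSec {x y : X.functionField} (hxy : x * y = 1) :
    X.presheaf.map (homOfLE (inf_le_left : regLocus x ⊓ regLocus y ≤ regLocus x)).op (regSec x) *
      X.presheaf.map (homOfLE (inf_le_right : regLocus x ⊓ regLocus y ≤ regLocus y)).op
        (regSec y) = 1 := by
  have hg : genericPoint X ∈ regLocus x ⊓ regLocus y :=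
    ⟨genericPoint_mem_regLocus x, genericPoint_mem_regLocus y⟩
  apply sec_ext hg
  rw [map_mul, map_one, X.presheaf.germ_res_apply, X.presheaf.germ_res_apply, germ_regSec,
    germ_regSec, hxy]

/-- `D(x) = regLocus x ⊓ regLocus x⁻¹`.  (`≤`: on `D(x)` the section `x` is invertible
(`RingedSpace.isUnit_res_basicOpen`), its inverse has germ `y`, use `le_regLocus`.  `≥`: by
`regSec_mul_regSec` the germ of `x` at `p` is a unit, `Scheme.mem_basicOpen`.) -/
theorem basicOpen_regSec {x y : X.functionField} (hxy : x * y = 1) :
    X.basicOpen (regSec x) = regLocus x ⊓ regLocus y := by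
  apply le_antisymm
  · apply le_inf (X.basicOpen_le _)
    have hg : genericPoint X ∈ X.basicOpen (regSec x) := by
      rw [X.mem_basicOpen _ _ (genericPoint_mem_regLocus x), germ_regSec]
      exact IsUnit.of_mul_eq_one _ hxy
    have hunit : IsUnit (X.presheaf.map (homOfLE (X.basicOpen_le (regSec x))).op (regSec x)) :=
      X.toRingedSpace.isUnit_res_basicOpen (regSec x)
    obtain ⟨u, hu⟩ := hunit
    have h1 : X.presheaf.germ (X.basicOpen (regSec x)) (genericPoint X) hg
        ((u⁻¹ : (Γ(X, X.basicOpen (regSec x)))ˣ) : Γ(X, X.basicOpen (regSec x))) = y := by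
      have h2 : X.presheaf.germ (X.basicOpen (regSec x)) (genericPoint X) hg
          (u : Γ(X, X.basicOpen (regSec x))) = x := by
        rw [hu]
        exact (X.presheaf.germ_res_apply _ _ _ _).trans (germ_regSec x)
      have h3 := congrArg (X.presheaf.germ (X.basicOpen (regSec x)) (genericPoint X) hg)
        (u.mul_inv)
      rw [map_mul, map_one, h2] at h3
      have hx0 : x ≠ 0 := left_ne_zero_of_mul_eq_one hxy
      exact mul_left_cancel₀ hx0 (h3.trans hxy.symm)
    have h4 := le_regLocus hg ((u⁻¹ : (Γ(X, X.basicOpen (regSec x)))ˣ) :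
      Γ(X, X.basicOpen (regSec x)))
    rwa [h1] at h4
  · intro p hp
    have hpx : p ∈ regLocus x := hp.1
    rw [X.mem_basicOpen _ _ hpx]
    have h1 := congrArg (X.presheaf.germ (regLocus x ⊓ regLocus y) p hp)
      (regSec_mul_regSec hxy)
    rw [map_mul, map_one, X.presheaf.germ_res_apply, X.presheaf.germ_res_apply] at h1
    exact IsUnit.of_mul_eq_one _ h1

end Fermat.Agent.S25.G
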