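import Fermat.Agent.S25.G.Sec

/-! # S25 / layer G, task S25/G-ToA1 : the morphism `toA1 c U s : U ⟶ 𝔸¹ = Spec k[X]` attached to a section
`s ∈ Γ(C, U)`, basic compatibilities. -/
set_option autoImplicit false
universe u
open CategoryTheory CategoryTheory.Limits AlgebraicGeometry

namespace Fermat.Agent.S25.G

variable {k : Type u} [Field k] {C : Scheme.{u}} (c : C ⟶ Spec (CommRingCat.of k))

/-- the morphism `U → 𝔸¹ = Spec k[X]` defined by a section `s ∈ Γ(C, U)`. -/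
noncomputable def toA1 (U : C.Opens) (s : Γ(C, U)) :
    U.toScheme ⟶ Spec (CommRingCat.of (Polynomial k)) :=
  U.toSpecΓ ≫ Spec.map (CommRingCat.ofHom (Polynomial.eval₂RingHom (kSec c U) s))

/-- `𝔸¹ → Spec k` -/
noncomputable def A1ToBase (k : Type u) [Field k] :
    Spec (CommRingCat.of (Polynomial k)) ⟶ Spec (CommRingCat.of k) :=
  Spec.map (CommRingCat.ofHom (Polynomial.C : k →+* Polynomial k))

theorem ToA1.toSpecΓ_kSec (U : C.Opens) :
    U.toSpecΓ ≫ Spec.map (CommRingCat.ofHom (kSec c U)) = U.ι ≫ c := by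
  have hle : U ≤ c ⁻¹ᵁ ⊤ := le_top
  have h : CommRingCat.ofHom (kSec c U) =
      (Scheme.ΓSpecIso (CommRingCat.of k)).inv ≫ c.appLE ⊤ U hle := rfl
  rw [h, Spec.map_comp, Scheme.Opens.toSpecΓ_SpecMap_appLE_assoc, Scheme.Opens.toSpecΓ_top,
    Category.assoc, toSpecΓ_SpecMap_ΓSpecIso_inv, Category.comp_id, Scheme.Hom.resLE_comp_ι]

/-- both sides are morphisms to an affine scheme: compare global sections (`ext_of_isAffine`,
`Scheme.Opens.toSpecΓ_appTop`), or use `Scheme.Opens.toSpecΓ_SpecMap_appLE`/`toSpecΓ_naturality`. -/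
theorem toA1_comp (U : C.Opens) (s : Γ(C, U)) : toA1 c U s ≫ A1ToBase k = U.ι ≫ c := by
  rw [toA1, A1ToBase, Category.assoc, ← Spec.map_comp, ← CommRingCat.ofHom_comp,
    ← ToA1.toSpecΓ_kSec]
  congr 3
  ext a
  simp

/-- for `V ≤ U`: `(V → U → 𝔸¹)` is `toA1` of the restricted section. -/
theorem homOfLE_toA1 {U V : C.Opens} (h : V ≤ U) (s : Γ(C, U)) :
    C.homOfLE h ≫ toA1 c U s = toA1 c V (C.presheaf.map (homOfLE h).op s) := by
  rw [toA1, toA1, ← Scheme.Opens.toSpecΓ_SpecMap_presheaf_map_assoc, ← Spec.map_comp]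
  congr 2
  ext1
  apply Polynomial.ringHom_ext
  · intro a
    simp [kSec_res]
  · simp

/-- for `V` affine, `toA1 c V s` is (up to the isomorphism `V ≅ Spec Γ(C, V)`) `Spec` of `eval₂ (kSec c V) s`. -/
theorem fromSpec_toA1 {V : C.Opens} (hV : IsAffineOpen V) (s : Γ(C, V)) :
    hV.isoSpec.inv ≫ toA1 c V s =
      Spec.map (CommRingCat.ofHom (Polynomial.eval₂RingHom (kSec c V) s)) := by
  rw [toA1, IsAffineOpen.isoSpec_inv_toSpecΓ_assoc]

end Fermat.Agent.S25.G
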