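import Fermat.Agent.S25.G.ToA1

/-! # S25 / layer G, task S25/G-Valuative : existence part of the valuative criterion for `x : U₀ → 𝔸¹`.

Abstract situation: `c : C ⟶ Spec k` universally closed, `C = U₀ ∪ U₁`, `s₀ ∈ Γ(U₀)`, `s₁ ∈ Γ(U₁)`, `s₀ s₁ = 1` on
`U₀ ∩ U₁` and `D(s₁) ⊆ U₀`.  No curve, no integrality. -/
set_option autoImplicit false
universe u
open CategoryTheory CategoryTheory.Limits AlgebraicGeometry

namespace Fermat.Agent.S25.G

variable {k : Type u} [Field k] {C : Scheme.{u}} (c : C ⟶ Spec (CommRingCat.of k))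

namespace Valuative

/-- the coordinate function on `𝔸¹`. -/
noncomputable def coord (k : Type u) [Field k] : Γ(Spec (CommRingCat.of (Polynomial k)), ⊤) :=
  (Scheme.ΓSpecIso (CommRingCat.of (Polynomial k))).inv (Polynomial.X : Polynomial k)

theorem le_preimage {T : Scheme.{u}} {U : C.Opens} (g : T ⟶ U.toScheme) : ⊤ ≤ (g ≫ U.ι) ⁻¹ᵁ U := by
  intro x _
  change (g ≫ U.ι) x ∈ U
  rw [Scheme.Hom.comp_apply]
  exact (g x).2

/-- pulling back the coordinate along `toA1` gives the section. -/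
theorem toA1_appTop_coord (U : C.Opens) (s : Γ(C, U)) :
    (toA1 c U s).appTop (coord k) = U.topIso.inv s := by
  unfold toA1 coord
  rw [Scheme.Hom.comp_appTop, Scheme.Opens.toSpecΓ_appTop]
  have : (Spec.map (CommRingCat.ofHom (Polynomial.eval₂RingHom (kSec c U) s))).appTop ≫
      (Scheme.ΓSpecIso Γ(C, U)).hom = (Scheme.ΓSpecIso (CommRingCat.of (Polynomial k))).hom ≫
        CommRingCat.ofHom (Polynomial.eval₂RingHom (kSec c U) s) :=
    Scheme.ΓSpecIso_naturality (CommRingCat.ofHom (Polynomial.eval₂RingHom (kSec c U) s))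
  rw [← Category.assoc, this, CommRingCat.comp_apply, CommRingCat.comp_apply,
    Iso.inv_hom_id_apply]
  congr 1
  exact Polynomial.eval₂_X _ _

theorem comp_toA1_appTop_coord {T : Scheme.{u}} (U : C.Opens) (s : Γ(C, U)) (g : T ⟶ U.toScheme) :
    (g ≫ toA1 c U s).appTop (coord k) = (g ≫ U.ι).appLE U ⊤ (le_preimage g) s := by
  rw [Scheme.Hom.comp_appTop, CommRingCat.comp_apply, toA1_appTop_coord]
  rw [← Scheme.Hom.appLE_comp_appLE g U.ι U ⊤ ⊤ (by simp) le_rfl, CommRingCat.comp_apply]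
  have h1 : g.appLE ⊤ ⊤ le_rfl = g.appTop := Scheme.Hom.appLE_eq_app g
  have h2 : U.ι.appLE U ⊤ (by simp) = U.topIso.inv := by
    rw [Scheme.Opens.ι_appLE]
    rfl
  rw [h1, h2]

theorem appLE_congr {X Y : Scheme.{u}} {f g : X ⟶ Y} (h : f = g) {U : Y.Opens} {V : X.Opens}
    (e : V ≤ f ⁻¹ᵁ U) : f.appLE U V e = g.appLE U V (h ▸ e) := by
  subst h; rfl

theorem appTop_SpecMap_injective {R K : Type u} [CommRing R] [CommRing K] (f : R →+* K)
    (hf : Function.Injective f) :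
    Function.Injective (Spec.map (CommRingCat.ofHom f)).appTop := by
  have h := Scheme.ΓSpecIso_naturality (CommRingCat.ofHom f)
  intro a b hab
  have h2 : ∀ z, (Scheme.ΓSpecIso (CommRingCat.of K)).hom
      ((Spec.map (CommRingCat.ofHom f)).appTop z) =
      f ((Scheme.ΓSpecIso (CommRingCat.of R)).hom z) := by
    intro z
    have := ConcreteCategory.congr_hom h z
    rw [CommRingCat.comp_apply, CommRingCat.comp_apply] at this
    exact this
  have h3 := hf ((h2 a).symm.trans ((congrArg _ hab).trans (h2 b)))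
  exact (ConcreteCategory.bijective_of_isIso (Scheme.ΓSpecIso (CommRingCat.of R)).hom).1 h3

theorem eq_of_SpecMap_comp_eq {R K : Type u} [CommRing R] [CommRing K] (f : R →+* K)
    (hf : Function.Injective f) {Y : Scheme.{u}} [IsAffine Y] {a b : Spec (CommRingCat.of R) ⟶ Y}
    (h : Spec.map (CommRingCat.ofHom f) ≫ a = Spec.map (CommRingCat.ofHom f) ≫ b) : a = b := by
  apply ext_of_isAffine
  have h' := congrArg Scheme.Hom.appTop h
  rw [Scheme.Hom.comp_appTop, Scheme.Hom.comp_appTop] at h'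
  ext z
  apply appTop_SpecMap_injective f hf
  have := congrArg (fun m => (ConcreteCategory.hom m) z) h'
  simpa using this

theorem top_le_preimage_of_closedPoint {R : Type u} [CommRing R] [IsLocalRing R]
    (l : Spec (CommRingCat.of R) ⟶ C) (W : C.Opens) (h : l (IsLocalRing.closedPoint R) ∈ W) :
    ⊤ ≤ l ⁻¹ᵁ W := by
  have h2 := (IsLocalRing.closed_point_mem_iff (R := R)
    (U := (l ⁻¹ᵁ W : TopologicalSpace.Opens (PrimeSpectrum R)))).1 h
  exact h2.ge

end Valuative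

open Valuative in
/-- **Existence part of the valuative criterion.**  Lift `Spec R ⟶ C` by properness of `c`; if the closed point
went to `U₁` then `(pull back of s₁) * (image of X) = 1` in `R`, so it lies in `D(s₁) ≤ U₀`. -/
theorem toA1_existence [UniversallyClosed c] [QuasiCompact c] (U₀ U₁ : C.Opens) (hcov : U₀ ⊔ U₁ = ⊤)
    (s₀ : Γ(C, U₀)) (s₁ : Γ(C, U₁))
    (hmul : C.presheaf.map (homOfLE (inf_le_left : U₀ ⊓ U₁ ≤ U₀)).op s₀ *
      C.presheaf.map (homOfLE (inf_le_right : U₀ ⊓ U₁ ≤ U₁)).op s₁ = 1)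
    (hb : C.basicOpen s₁ ≤ U₀) : ValuativeCriterion.Existence (toA1 c U₀ s₀) := by
  intro S
  have hinj : Function.Injective (algebraMap S.R S.K) := IsFractionRing.injective S.R S.K
  have sq : CommSq (S.i₁ ≫ U₀.ι) (Spec.map (CommRingCat.ofHom (algebraMap S.R S.K))) c
      (S.i₂ ≫ A1ToBase k) := ⟨by
    rw [Category.assoc, ← toA1_comp c U₀ s₀, ← Category.assoc, S.commSq.w, Category.assoc]⟩
  let S' : ValuativeCommSq c :=
    { R := S.R, K := S.K, i₁ := S.i₁ ≫ U₀.ι, i₂ := S.i₂ ≫ A1ToBase k, commSq := sq }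
  have hc : ValuativeCriterion.Existence c := by
    have : (ValuativeCriterion.Existence ⊓ @QuasiCompact) c :=
      UniversallyClosed.eq_valuativeCriterion ▸ ‹UniversallyClosed c›
    exact this.1
  obtain ⟨⟨l, hl₁, hl₂⟩⟩ := (hc S').exists_lift
  change Spec.map (CommRingCat.ofHom (algebraMap S.R S.K)) ≫ l = S.i₁ ≫ U₀.ι at hl₁
  have key : l (IsLocalRing.closedPoint S.R) ∈ U₀ := by
    have hmem : l (IsLocalRing.closedPoint S.R) ∈ U₀ ⊔ U₁ := by rw [hcov]; trivial
    rcases hmem with h | h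
    · exact h
    · apply hb
      have h₁ : ⊤ ≤ l ⁻¹ᵁ U₁ := top_le_preimage_of_closedPoint l U₁ h
      have hab : S.i₂.appTop (coord k) * l.appLE U₁ ⊤ h₁ s₁ = 1 := by
        apply appTop_SpecMap_injective _ hinj
        rw [map_mul, map_one]
        have e₀ : ⊤ ≤ (S.i₁ ≫ U₀.ι) ⁻¹ᵁ U₀ := le_preimage S.i₁
        have e₁ : ⊤ ≤ (S.i₁ ≫ U₀.ι) ⁻¹ᵁ U₁ := by
          rw [← hl₁]
          intro z _
          exact h₁ (x := Spec.map (CommRingCat.ofHom (algebraMap S.R S.K)) z) trivial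
        have e₀₁ : ⊤ ≤ (S.i₁ ≫ U₀.ι) ⁻¹ᵁ (U₀ ⊓ U₁) := fun z hz => ⟨e₀ hz, e₁ hz⟩
        have t1 : (Spec.map (CommRingCat.ofHom (algebraMap S.R S.K))).appTop
            (S.i₂.appTop (coord k)) = (S.i₁ ≫ U₀.ι).appLE U₀ ⊤ e₀ s₀ := by
          rw [← comp_toA1_appTop_coord c U₀ s₀ S.i₁, S.commSq.w, Scheme.Hom.comp_appTop,
            CommRingCat.comp_apply]
        have t2 : (Spec.map (CommRingCat.ofHom (algebraMap S.R S.K))).appTop
            (l.appLE U₁ ⊤ h₁ s₁) = (S.i₁ ≫ U₀.ι).appLE U₁ ⊤ e₁ s₁ := by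
          rw [appLE_congr hl₁.symm e₁,
            ← Scheme.Hom.appLE_comp_appLE _ l U₁ ⊤ ⊤ h₁ le_rfl, CommRingCat.comp_apply]
          rfl
        rw [t1, t2, ← Scheme.Hom.map_appLE (S.i₁ ≫ U₀.ι) e₀₁ (homOfLE inf_le_left).op,
          ← Scheme.Hom.map_appLE (S.i₁ ≫ U₀.ι) e₀₁ (homOfLE inf_le_right).op,
          CommRingCat.comp_apply, CommRingCat.comp_apply, ← map_mul, hmul, map_one]
      have hu : IsUnit (l.appLE U₁ ⊤ h₁ s₁) := IsUnit.of_mul_eq_one _ (by rw [mul_comm]; exact hab)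
      have h2 := Scheme.basicOpen_appLE l ⊤ U₁ h₁ s₁
      rw [Scheme.basicOpen_of_isUnit _ hu] at h2
      have h3 : IsLocalRing.closedPoint S.R ∈ (⊤ ⊓ l ⁻¹ᵁ C.basicOpen s₁ :
          (Spec (CommRingCat.of S.R)).Opens) := h2 ▸ trivial
      exact h3.2
  have hr : Set.range l ⊆ Set.range U₀.ι := by
    rw [Scheme.Opens.range_ι]
    rintro _ ⟨z, rfl⟩
    exact top_le_preimage_of_closedPoint l U₀ key trivial
  have hfac := IsOpenImmersion.lift_fac U₀.ι l hr
  have hleft : Spec.map (CommRingCat.ofHom (algebraMap S.R S.K)) ≫ IsOpenImmersion.lift U₀.ι l hr =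
      S.i₁ := by
    rw [← cancel_mono U₀.ι, Category.assoc, hfac, hl₁]
  refine ⟨⟨⟨IsOpenImmersion.lift U₀.ι l hr, hleft, ?_⟩⟩⟩
  apply eq_of_SpecMap_comp_eq _ hinj
  rw [← Category.assoc, hleft, S.commSq.w]

end Fermat.Agent.S25.G
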